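import Fermat.Agent.S05.Transport
set_option autoImplicit false

/-!
# S05, part D: valuations of the coefficients of the model curves
-/

namespace Fermat.Agent.S05Lib
open WeierstrassCurve WeierstrassCurve.Affine WeierstrassCurve.Affine.Point

local notation "Qb" => AlgebraicClosure ℚ

theorem algebraMap_intCast_rat (n : ℤ) : algebraMap ℚ Qb (n : ℚ) = (n : Qb) := by
  simp

theorem not_dvd_of_gcd_eq_one {q : ℕ} (hq : q.Prime) {x y : ℤ} (h : gcd x y = 1)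
    (hx : (q : ℤ) ∣ x) : ¬ (q : ℤ) ∣ y := by
  intro hy
  have h1 : (q : ℤ) ∣ gcd x y := dvd_gcd hx hy
  rw [h] at h1
  have h2 := Int.eq_one_of_dvd_one (by positivity) h1
  have h3 : q = 1 := by exact_mod_cast h2
  exact hq.one_lt.ne' h3

theorem int_prime {q : ℕ} (hq : q.Prime) : Prime (q : ℤ) := Nat.prime_iff_prime_int.mp hq

/-- case (i): `q ∣ a b`, model curve with `e = 0`. -/
theorem case_ab (P : FreyPackage) (A : ValuationSubring Qb) {q : ℕ} (hq : q.Prime)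
    (hA : A.LiesOverPrime q) (hdvd : (q : ℤ) ∣ P.a * P.b) :
    A.valuation (algebraMap ℚ Qb ((P.b : ℚ) ^ P.p - (P.a : ℚ) ^ P.p)) = 1 ∧
    A.valuation (algebraMap ℚ Qb (-((P.a : ℚ) ^ P.p * (P.b : ℚ) ^ P.p))) < 1 ∧
    algebraMap ℚ Qb (-((P.a : ℚ) ^ P.p * (P.b : ℚ) ^ P.p)) ≠ 0 ∧
    A.valuation (algebraMap ℚ Qb (-((P.a : ℚ) ^ P.p * (P.b : ℚ) ^ P.p))) ^ 2 =
      A.valuation (algebraMap ℚ Qb (((P.a : ℚ) * (P.b : ℚ)) ^ 2)) ^ P.p := by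
  have e1 : ((P.b : ℚ) ^ P.p - (P.a : ℚ) ^ P.p) = ((P.b ^ P.p - P.a ^ P.p : ℤ) : ℚ) := by push_cast; ring
  have e2 : (-((P.a : ℚ) ^ P.p * (P.b : ℚ) ^ P.p)) = ((-(P.a ^ P.p * P.b ^ P.p) : ℤ) : ℚ) := by
    push_cast; ring
  have hp0 : P.p ≠ 0 := P.hp0
  refine ⟨?_, ?_, ?_, ?_⟩
  · rw [e1, algebraMap_intCast_rat]
    apply valuation_intCast_eq_one A hq hA
    intro hd
    rcases (int_prime hq).dvd_or_dvd hdvd with h | h
    · have hb : ¬ (q : ℤ) ∣ P.b := not_dvd_of_gcd_eq_one hq P.hgcdab h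
      apply hb
      apply (int_prime hq).dvd_of_dvd_pow (n := P.p)
      have := dvd_add hd (dvd_pow h hp0)
      simpa using this
    · have ha : ¬ (q : ℤ) ∣ P.a := not_dvd_of_gcd_eq_one hq (by rw [gcd_comm]; exact P.hgcdab) h
      apply ha
      apply (int_prime hq).dvd_of_dvd_pow (n := P.p)
      have := dvd_sub (dvd_pow h hp0) hd
      simpa using this
  · rw [e2, algebraMap_intCast_rat]
    apply valuation_intCast_lt_one A hA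
    rw [dvd_neg, ← mul_pow]
    exact dvd_pow hdvd hp0
  · rw [Ne, map_eq_zero_iff _ (algebraMap ℚ Qb).injective, neg_eq_zero]
    have ha : (P.a : ℚ) ≠ 0 := by exact_mod_cast P.ha0
    have hb : (P.b : ℚ) ≠ 0 := by exact_mod_cast P.hb0
    positivity
  · rw [map_neg, Valuation.map_neg, ← mul_pow, map_pow, map_pow, map_pow, map_pow, ← pow_mul,
      ← pow_mul, mul_comm P.p 2]

/-- case (ii): `q ∣ c`, model curve with `e = a`. -/
theorem case_c (P : FreyPackage) (A : ValuationSubring Qb) {q : ℕ} (hq : q.Prime)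
    (hA : A.LiesOverPrime q) (hdvd : (q : ℤ) ∣ P.c) :
    A.valuation (algebraMap ℚ Qb (2 * (P.a : ℚ) ^ P.p + (P.b : ℚ) ^ P.p)) = 1 ∧
    A.valuation (algebraMap ℚ Qb ((P.a : ℚ) ^ P.p * ((P.a : ℚ) ^ P.p + (P.b : ℚ) ^ P.p))) < 1 ∧
    algebraMap ℚ Qb ((P.a : ℚ) ^ P.p * ((P.a : ℚ) ^ P.p + (P.b : ℚ) ^ P.p)) ≠ 0 ∧
    A.valuation (algebraMap ℚ Qb ((P.a : ℚ) ^ P.p * ((P.a : ℚ) ^ P.p + (P.b : ℚ) ^ P.p))) ^ 2 =
      A.valuation (algebraMap ℚ Qb (((P.a : ℚ) * (P.c : ℚ)) ^ 2)) ^ P.p := by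
  have hFLT : (P.a : ℚ) ^ P.p + (P.b : ℚ) ^ P.p = (P.c : ℚ) ^ P.p := by exact_mod_cast P.hFLT
  have e1 : (2 * (P.a : ℚ) ^ P.p + (P.b : ℚ) ^ P.p) = ((P.a ^ P.p + P.c ^ P.p : ℤ) : ℚ) := by
    push_cast; rw [← hFLT]; ring
  have e2 : ((P.a : ℚ) ^ P.p * ((P.a : ℚ) ^ P.p + (P.b : ℚ) ^ P.p)) =
      ((P.a ^ P.p * P.c ^ P.p : ℤ) : ℚ) := by
    push_cast; rw [← hFLT]
  have hp0 : P.p ≠ 0 := P.hp0
  refine ⟨?_, ?_, ?_, ?_⟩
  · rw [e1, algebraMap_intCast_rat]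
    apply valuation_intCast_eq_one A hq hA
    intro hd
    have ha : ¬ (q : ℤ) ∣ P.a := not_dvd_of_gcd_eq_one hq (by rw [gcd_comm]; exact P.hgcdac) hdvd
    apply ha
    apply (int_prime hq).dvd_of_dvd_pow (n := P.p)
    have := dvd_sub hd (dvd_pow hdvd hp0)
    simpa using this
  · rw [e2, algebraMap_intCast_rat]
    apply valuation_intCast_lt_one A hA
    exact Dvd.dvd.mul_left (dvd_pow hdvd hp0) _
  · rw [hFLT, Ne, map_eq_zero_iff _ (algebraMap ℚ Qb).injective]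
    have ha : (P.a : ℚ) ≠ 0 := by exact_mod_cast P.ha0
    have hc : (P.c : ℚ) ≠ 0 := by exact_mod_cast P.hc0
    positivity
  · rw [hFLT, ← mul_pow, map_pow, map_pow, map_pow, map_pow, ← pow_mul, ← pow_mul, mul_comm P.p 2]

/-- case (iii): `q ∤ a b c`, model curve with `e = 0`. -/
theorem case_good (P : FreyPackage) (A : ValuationSubring Qb) {q : ℕ} (hq : q.Prime)
    (hA : A.LiesOverPrime q) (hab : ¬ (q : ℤ) ∣ P.a * P.b) (hc : ¬ (q : ℤ) ∣ P.c) :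
    A.valuation (algebraMap ℚ Qb ((P.b : ℚ) ^ P.p - (P.a : ℚ) ^ P.p)) ≤ 1 ∧
    A.valuation (algebraMap ℚ Qb (-((P.a : ℚ) ^ P.p * (P.b : ℚ) ^ P.p))) = 1 ∧
    A.valuation (algebraMap ℚ Qb ((P.b : ℚ) ^ P.p - (P.a : ℚ) ^ P.p) ^ 2 -
      4 * algebraMap ℚ Qb (-((P.a : ℚ) ^ P.p * (P.b : ℚ) ^ P.p))) = 1 := by
  have hFLT : (P.a : ℚ) ^ P.p + (P.b : ℚ) ^ P.p = (P.c : ℚ) ^ P.p := by exact_mod_cast P.hFLT
  have e1 : ((P.b : ℚ) ^ P.p - (P.a : ℚ) ^ P.p) = ((P.b ^ P.p - P.a ^ P.p : ℤ) : ℚ) := by push_cast; ring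
  have e2 : (-((P.a : ℚ) ^ P.p * (P.b : ℚ) ^ P.p)) = ((-(P.a ^ P.p * P.b ^ P.p) : ℤ) : ℚ) := by
    push_cast; ring
  have e3 : algebraMap ℚ Qb ((P.b : ℚ) ^ P.p - (P.a : ℚ) ^ P.p) ^ 2 -
      4 * algebraMap ℚ Qb (-((P.a : ℚ) ^ P.p * (P.b : ℚ) ^ P.p)) =
      algebraMap ℚ Qb (((P.c ^ P.p) ^ 2 : ℤ) : ℚ) := by
    have : (((P.c ^ P.p) ^ 2 : ℤ) : ℚ) = ((P.b : ℚ) ^ P.p - (P.a : ℚ) ^ P.p) ^ 2 -
        4 * (-((P.a : ℚ) ^ P.p * (P.b : ℚ) ^ P.p)) := by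
      push_cast; rw [← hFLT]; ring
    rw [this]
    simp only [map_sub, map_mul, map_pow, map_ofNat, map_neg]
  refine ⟨?_, ?_, ?_⟩
  · rw [e1, algebraMap_intCast_rat]
    exact valuation_intCast_le_one A _
  · rw [e2, algebraMap_intCast_rat]
    apply valuation_intCast_eq_one A hq hA
    rw [dvd_neg, ← mul_pow]
    exact fun h => hab ((int_prime hq).dvd_of_dvd_pow h)
  · rw [e3, algebraMap_intCast_rat]
    apply valuation_intCast_eq_one A hq hA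
    exact fun h => hc ((int_prime hq).dvd_of_dvd_pow ((int_prime hq).dvd_of_dvd_pow h))

/-- `2` and `p` are units. -/
theorem valuation_natCast_eq_one (A : ValuationSubring Qb) {q : ℕ} (hq : q.Prime)
    (hA : A.LiesOverPrime q) {n : ℕ} (hn : n.Prime) (hne : q ≠ n) : A.valuation (n : Qb) = 1 := by
  have := valuation_intCast_eq_one A hq hA (n : ℤ) (by
    intro h
    have h1 : q ∣ n := by exact_mod_cast h
    exact hne ((Nat.prime_dvd_prime_iff_eq hq hn).mp h1))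
  simpa using this

end Fermat.Agent.S05Lib
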