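import Fermat.Agent.S05.Mult
import Fermat.Agent.S05.Cases
set_option autoImplicit false

/-!
# S05: final assembly
-/

namespace Fermat.Agent.S05Lib

open WeierstrassCurve WeierstrassCurve.Affine WeierstrassCurve.Affine.Point

local notation "Qb" => AlgebraicClosure ℚ

theorem xc_smul {W' : Affine ℚ} (σ : Qb ≃ₐ[ℚ] Qb) (P : (W'⁄Qb).Point) :
    xc (σ • P) = σ (xc P) := by
  cases P with
  | zero => exact (map_zero σ).symm
  | some x y h => rfl

theorem yc_smul {W' : Affine ℚ} (σ : Qb ≃ₐ[ℚ] Qb) (P : (W'⁄Qb).Point) :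
    yc (σ • P) = σ (yc P) := by
  cases P with
  | zero => exact (map_zero σ).symm
  | some x y h => rfl

theorem galData {W' : Affine ℚ} (A : ValuationSubring Qb) (σ : Qb ≃ₐ[ℚ] Qb)
    (hσ : σ ∈ A.inertiaSubgroupIn ℚ) :
    GalData A (W'⁄Qb) (σ : Qb →+* Qb) (DistribSMul.toAddMonoidHom (W'⁄Qb).Point σ) where
  v_eq := (inertia_facts A σ hσ).1
  v_sub := fun x hx => (inertia_facts A σ hσ).2 x ((A.valuation_le_one_iff x).mp hx)
  xc_s := xc_smul σ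
  yc_s := yc_smul σ
  s_ne := by
    intro P hP h
    apply hP
    have h' : σ • P = 0 := h
    have := congrArg (fun Q => σ⁻¹ • Q) h'
    simpa using this

theorem main_aux (P : FreyPackage) {q : ℕ} (hq : q.Prime) (hq2 : q ≠ 2) (hqp : q ≠ P.p)
    (A : ValuationSubring Qb) (hA : A.LiesOverPrime q) (σ : Qb ≃ₐ[ℚ] Qb)
    (hσ : σ ∈ A.inertiaSubgroupIn ℚ) (x : (P.freyCurve⁄Qb).Point) (hx : P.p • x = 0) :
    σ • x = x := by
  have h2 : A.valuation (2 : Qb) = 1 := by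
    have := valuation_natCast_eq_one A hq hA Nat.prime_two hq2
    simpa using this
  have hpA : A.valuation (P.p : Qb) = 1 := valuation_natCast_eq_one A hq hA P.pp hqp
  have hfix : ∀ r : ℚ, (σ : Qb →+* Qb) (algebraMap ℚ Qb r) = algebraMap ℚ Qb r := fun r =>
    σ.commutes r
  -- reduce to the model curve
  have key : ∀ (e α β : ℚ),
      ((e = 0 ∧ α = (P.b : ℚ) ^ P.p - (P.a : ℚ) ^ P.p ∧
          β = -((P.a : ℚ) ^ P.p * (P.b : ℚ) ^ P.p)) ∨
        (e = (P.a : ℚ) ^ P.p ∧ α = 2 * (P.a : ℚ) ^ P.p + (P.b : ℚ) ^ P.p ∧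
          β = (P.a : ℚ) ^ P.p * ((P.a : ℚ) ^ P.p + (P.b : ℚ) ^ P.p))) →
      (∀ T : ((EC α β)⁄Qb).Point, P.p • T = 0 → σ • T = T) →
      σ • x = x := by
    intro e α β h hT
    obtain ⟨φ, hinj, hφ⟩ := exists_transport P e α β h
    apply hinj
    rw [hφ]
    apply hT
    rw [← map_nsmul, hx, _root_.map_zero]
  by_cases hab : (q : ℤ) ∣ P.a * P.b
  · obtain ⟨c1, c2, c3, c4⟩ := case_ab P A hq hA hab
    refine key 0 _ _ (Or.inl ⟨rfl, rfl, rfl⟩) fun T hT => ?_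
    have H : Hyp A.valuation ((EC ((P.b : ℚ) ^ P.p - (P.a : ℚ) ^ P.p)
        (-((P.a : ℚ) ^ P.p * (P.b : ℚ) ^ P.p)))⁄Qb) :=
      { toIsE := isE_EC _ _ _
        ha₂ := by rw [EC_a₂]; exact c1.le
        ha₄ := by rw [EC_a₄]; exact c2.le
        h2 := h2 }
    exact fixed_of_mult H (by rw [EC_a₂]; exact c1) (by rw [EC_a₄]; exact c2)
      (by rw [EC_a₄]; exact c3) P.pp P.hp5 hpA (galData A σ hσ) (hfix _)
      (by rw [EC_a₄]; exact c4) hT
  by_cases hc : (q : ℤ) ∣ P.c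
  · obtain ⟨c1, c2, c3, c4⟩ := case_c P A hq hA hc
    refine key _ _ _ (Or.inr ⟨rfl, rfl, rfl⟩) fun T hT => ?_
    have H : Hyp A.valuation ((EC (2 * (P.a : ℚ) ^ P.p + (P.b : ℚ) ^ P.p)
        ((P.a : ℚ) ^ P.p * ((P.a : ℚ) ^ P.p + (P.b : ℚ) ^ P.p)))⁄Qb) :=
      { toIsE := isE_EC _ _ _
        ha₂ := by rw [EC_a₂]; exact c1.le
        ha₄ := by rw [EC_a₄]; exact c2.le
        h2 := h2 }
    exact fixed_of_mult H (by rw [EC_a₂]; exact c1) (by rw [EC_a₄]; exact c2)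
      (by rw [EC_a₄]; exact c3) P.pp P.hp5 hpA (galData A σ hσ) (hfix _)
      (by rw [EC_a₄]; exact c4) hT
  · obtain ⟨c1, c2, c3⟩ := case_good P A hq hA hab hc
    refine key 0 _ _ (Or.inl ⟨rfl, rfl, rfl⟩) fun T hT => ?_
    have H : Hyp A.valuation ((EC ((P.b : ℚ) ^ P.p - (P.a : ℚ) ^ P.p)
        (-((P.a : ℚ) ^ P.p * (P.b : ℚ) ^ P.p)))⁄Qb) :=
      { toIsE := isE_EC _ _ _
        ha₂ := by rw [EC_a₂]; exact c1
        ha₄ := by rw [EC_a₄]; exact c2.le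
        h2 := h2 }
    have hp3 : 3 ≤ P.p := by have := P.hp5; omega
    exact fixed_of_good H (by rw [EC_a₄]; exact c2) (by rw [EC_a₂, EC_a₄]; exact c3) P.pp hp3 hpA
      (galData A σ hσ) hT

theorem main (P : FreyPackage) {q : ℕ} (hq : q.Prime) (hq2 : q ≠ 2) (hqp : q ≠ P.p) :
    P.GaloisRepUnramifiedAt q := by
  intro A hA σ hσ x
  apply Subtype.ext
  have hx : P.p • x.1 = 0 := by
    have := x.2
    rw [Submodule.mem_torsionBy_iff] at this
    rw [← Nat.cast_smul_eq_nsmul ℤ]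
    exact this
  exact main_aux P hq hq2 hqp A hA σ hσ x.1 hx

end Fermat.Agent.S05Lib
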