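import Mathlib
set_option autoImplicit false

/-!
# S05: the combinatorial core of the multiplicative case (L5, L6)
-/

namespace Fermat.Agent.S05Lib

variable {F Γ₀ : Type*} [Field F] [LinearOrderedCommGroupWithZero Γ₀] (v : Valuation F Γ₀)

theorem core_step {a b c : Γ₀} {β x1 xj xk xm : F} (hb0 : 0 < b) (hb : v β = b) (ha : v x1 = a)
    (hba : b < a) (hj : v xj = c * a) (hbj : b < c * a) (hbk : b < v xk)
    (hma : v xm ≤ a)
    (R1 : v xk * c * a ^ 2 = v (xj * x1 - β) ^ 2)
    (R2 : v xm * a * v (xk - xj) ^ 2 = v (xk * xj - β) ^ 2) : v xk = c * a ^ 2 := by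
  have ha0 : 0 < a := hb0.trans hba
  have hca0 : 0 < c * a := hb0.trans hbj
  have hc0 : 0 < c := by
    rcases eq_or_ne c 0 with h | h
    · rw [h, zero_mul] at hca0
      exact absurd hca0 (lt_irrefl _)
    · exact zero_lt_iff.mpr h
  have hprod : v (xj * x1) = c * a ^ 2 := by rw [map_mul, hj, ha]; field_simp
  have hca2 : 0 < c * a ^ 2 := mul_pos hc0 (pow_pos ha0 2)
  rcases lt_trichotomy b (c * a ^ 2) with h | h | h
  · have h1 : v (xj * x1 - β) = c * a ^ 2 := by
      rw [← hprod]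
      exact Valuation.map_sub_eq_of_lt_left _ (by rw [hb, hprod]; exact h)
    rw [h1] at R1
    apply mul_right_cancel₀ hca2.ne'
    rw [← mul_assoc, R1, pow_two]
  · exfalso
    have h1 : v (xj * x1 - β) ≤ b := Valuation.map_sub_le v (by rw [hprod, h]) hb.le
    have h2 : v xk * b ≤ b * b := by
      calc v xk * b = v xk * c * a ^ 2 := by rw [h, mul_assoc]
        _ = v (xj * x1 - β) ^ 2 := R1
        _ ≤ b ^ 2 := by gcongr
        _ = b * b := pow_two b
    exact absurd (le_of_mul_le_mul_right h2 hb0) (not_le.mpr hbk)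
  · exfalso
    have h1 : v (xj * x1 - β) = b := by
      rw [← hb]
      exact Valuation.map_sub_eq_of_lt_right _ (by rw [hb, hprod]; exact h)
    rw [h1] at R1
    have h2 : v (xk * xj) < b := by
      rw [map_mul, hj]
      apply lt_of_mul_lt_mul_right (a := a) _ (le_of_lt ha0)
      calc v xk * (c * a) * a = v xk * c * a ^ 2 := by field_simp
        _ = b ^ 2 := R1
        _ = b * b := pow_two b
        _ < b * a := mul_lt_mul_of_pos_left hba hb0
    have h3 : v (xk * xj - β) = b := by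
      rw [← hb]
      exact Valuation.map_sub_eq_of_lt_right _ (by rw [hb]; exact h2)
    rw [h3] at R2
    rcases le_total (v xk) (c * a) with h4 | h4
    · have h5 : v (xk - xj) ≤ c * a := Valuation.map_sub_le v h4 hj.le
      have h6 : b ^ 2 ≤ (c * a ^ 2) ^ 2 := by
        calc b ^ 2 = v xm * a * v (xk - xj) ^ 2 := R2.symm
          _ ≤ a * a * (c * a) ^ 2 := by gcongr
          _ = (c * a ^ 2) ^ 2 := by field_simp
      have h7 : (c * a ^ 2) ^ 2 < b ^ 2 := pow_lt_pow_left₀ h (le_of_lt hca2) two_ne_zero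
      exact absurd h6 (not_le.mpr h7)
    · have h5 : v (xk - xj) ≤ v xk := Valuation.map_sub_le v le_rfl (hj.le.trans h4)
      have h6 : b ^ 2 ≤ (a * v xk) ^ 2 := by
        calc b ^ 2 = v xm * a * v (xk - xj) ^ 2 := R2.symm
          _ ≤ a * a * v xk ^ 2 := by gcongr
          _ = (a * v xk) ^ 2 := by field_simp
      have h7 : b ≤ a * v xk := (pow_le_pow_iff_left₀ (le_of_lt hb0) zero_le two_ne_zero).mp h6
      have h8 : (c * a) * b ≤ b * b := by
        calc (c * a) * b ≤ (c * a) * (a * v xk) := by gcongr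
          _ = v xk * c * a ^ 2 := by field_simp
          _ = b ^ 2 := R1
          _ = b * b := pow_two b
      exact absurd (le_of_mul_le_mul_right h8 hb0) (not_le.mpr hbj)

theorem core_last {a b c : Γ₀} {β x1 xj : F} (hb0 : 0 < b) (hb : v β = b) (ha : v x1 = a)
    (ha1 : a < 1) (hj : v xj = c * a) (hbj : b < c * a)
    (R1 : (c * a) * c * a ^ 2 = v (xj * x1 - β) ^ 2) : c ^ 2 * a ^ 3 = b ^ 2 := by
  have hca0 : 0 < c * a := hb0.trans hbj
  have hc0 : 0 < c := by
    rcases eq_or_ne c 0 with h | h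
    · rw [h, zero_mul] at hca0
      exact absurd hca0 (lt_irrefl _)
    · exact zero_lt_iff.mpr h
  have ha0 : 0 < a := by
    rcases eq_or_ne a 0 with h | h
    · rw [h, mul_zero] at hca0
      exact absurd hca0 (lt_irrefl _)
    · exact zero_lt_iff.mpr h
  have hprod : v (xj * x1) = c * a ^ 2 := by rw [map_mul, hj, ha]; field_simp
  have hca2 : 0 < c * a ^ 2 := mul_pos hc0 (pow_pos ha0 2)
  have hlt : (c * a ^ 2) ^ 2 < (c * a) * c * a ^ 2 := by
    calc (c * a ^ 2) ^ 2 = (c ^ 2 * a ^ 3) * a := by field_simp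
      _ < (c ^ 2 * a ^ 3) * 1 :=
        mul_lt_mul_of_pos_left ha1 (mul_pos (pow_pos hc0 2) (pow_pos ha0 3))
      _ = (c * a) * c * a ^ 2 := by field_simp
  rcases lt_trichotomy b (c * a ^ 2) with h | h | h
  · exfalso
    have h1 : v (xj * x1 - β) = c * a ^ 2 := by
      rw [← hprod]
      exact Valuation.map_sub_eq_of_lt_left _ (by rw [hb, hprod]; exact h)
    rw [h1] at R1
    exact absurd R1.symm hlt.ne
  · exfalso
    have h1 : v (xj * x1 - β) ≤ b := Valuation.map_sub_le v (by rw [hprod, h]) hb.le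
    have h2 : (c * a) * c * a ^ 2 ≤ (c * a ^ 2) ^ 2 := by
      rw [R1, ← h]
      gcongr
    exact absurd h2 (not_le.mpr hlt)
  · have h1 : v (xj * x1 - β) = b := by
      rw [← hb]
      exact Valuation.map_sub_eq_of_lt_right _ (by rw [hb, hprod]; exact h)
    rw [h1] at R1
    rw [← R1]
    field_simp

theorem core (x : ℕ → F) (β : F) (p k : ℕ) (hp : p = 2 * k + 1) (hk : 2 ≤ k) (hβ : β ≠ 0)
    (hlow : ∀ j, 0 < j → j < p → v β < v (x j)) (hmax : ∀ j, 0 < j → j < p → v (x j) ≤ v (x 1))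
    (h1 : v (x 1) < 1)
    (hdbl : v (x 2) * v (x 1) ^ 2 = v (x 1 ^ 2 - β) ^ 2)
    (hadd : ∀ i j, 0 < j → j < i → i + j < p →
      v (x (i + j)) * v (x (i - j)) * v (x i - x j) ^ 2 = v (x i * x j - β) ^ 2)
    (hsymm : v (x (k + 1)) = v (x k)) : v (x 1) ^ p = v β ^ 2 := by
  have hb0 : 0 < v β := zero_lt_iff.mpr ((Valuation.ne_zero_iff v).mpr hβ)
  have hba : v β < v (x 1) := hlow 1 one_pos (by omega)
  have ha0 : 0 < v (x 1) := hb0.trans hba
  have hsub : ∀ i, 1 ≤ i → v (x (i + 1)) = v (x 1) ^ (i + 1) → v (x (i + 1) - x 1) = v (x 1) := by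
    intro i hi h
    apply Valuation.map_sub_eq_of_lt_right
    rw [h]
    calc v (x 1) ^ (i + 1) < v (x 1) ^ 1 := pow_lt_pow_right_of_lt_one₀ ha0 h1 (by omega)
      _ = v (x 1) := pow_one _
  have claim : ∀ j, 1 ≤ j → j ≤ k → v (x j) = v (x 1) ^ j := by
    intro j
    induction j using Nat.strong_induction_on with
    | _ j ih =>
      intro hj1 hjk
      rcases Nat.lt_or_ge j 2 with hj2 | hj2
      · have : j = 1 := by omega
        rw [this, pow_one]
      obtain ⟨i, rfl⟩ : ∃ i, j = i + 2 := ⟨j - 2, by omega⟩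
      have e1 : v (x (i + 1)) = v (x 1) ^ (i + 1) := ih (i + 1) (by omega) (by omega) (by omega)
      have e1' : v (x (i + 1)) = v (x 1) ^ i * v (x 1) := by rw [e1, pow_succ]
      have R2 := hadd (i + 2) (i + 1) (by omega) (by omega) (by omega)
      have e2 : i + 2 - (i + 1) = 1 := by omega
      rw [e2] at R2
      have R1 : v (x (i + 2)) * v (x 1) ^ i * v (x 1) ^ 2 = v (x (i + 1) * x 1 - β) ^ 2 := by
        rcases Nat.eq_zero_or_pos i with rfl | hi
        · simp only [zero_add, pow_zero, mul_one]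
          rw [hdbl, pow_two (x 1)]
        · have := hadd (i + 1) 1 one_pos (by omega) (by omega)
          rw [hsub i hi e1, Nat.add_sub_cancel, ih i (by omega) hi (by omega)] at this
          exact this
      have := core_step v hb0 rfl rfl hba e1' (e1' ▸ hlow (i + 1) (by omega) (by omega))
        (hlow (i + 2) (by omega) (by omega)) (hmax (i + 2 + (i + 1)) (by omega) (by omega)) R1 R2
      rw [this, pow_add]
  obtain ⟨i, rfl⟩ : ∃ i, k = i + 2 := ⟨k - 2, by omega⟩
  have e1 : v (x (i + 1 + 1)) = v (x 1) ^ (i + 1 + 1) := claim (i + 2) (by omega) le_rfl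
  have e0 : v (x (i + 1)) = v (x 1) ^ (i + 1) := claim (i + 1) (by omega) (by omega)
  have e1' : v (x (i + 1 + 1)) = v (x 1) ^ (i + 1) * v (x 1) := by rw [e1, pow_succ]
  have R1 := hadd (i + 2) 1 one_pos (by omega) (by omega)
  have e3 : i + 2 - 1 = i + 1 := rfl
  rw [hsymm, hsub (i + 1) (by omega) e1, e3, e0, e1'] at R1
  have := core_last v hb0 rfl rfl h1 e1' (e1' ▸ hlow (i + 2) (by omega) (by omega)) R1
  rw [← this, hp, ← pow_mul, ← pow_add]
  congr 1
  ring

end Fermat.Agent.S05Lib
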