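import Mathlib
import Fermat.Prelude.Def_FLTPrelim_Ramification
set_option autoImplicit false

/-!
# S05: common definitions

The model curve `Y² = X (X² + α X + β)`.
-/

namespace Fermat.Agent.S05Lib

open WeierstrassCurve

/-- the model curve `Y² = X (X² + α X + β)` over `ℚ`. -/
def EC (α β : ℚ) : WeierstrassCurve.Affine ℚ := ⟨0, α, 0, β, 0⟩

/-- A Weierstrass curve of the shape `Y² = X (X² + a₂ X + a₄)`. -/
structure IsE {F : Type*} [CommRing F] (W : WeierstrassCurve.Affine F) : Prop where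
  a₁ : W.a₁ = 0
  a₃ : W.a₃ = 0
  a₆ : W.a₆ = 0

theorem isE_EC (α β : ℚ) (F : Type*) [Field F] [Algebra ℚ F] : IsE ((EC α β)⁄F) :=
  ⟨by simp [EC], by simp [EC], by simp [EC]⟩

@[simp] theorem EC_a₂ (α β : ℚ) (F : Type*) [Field F] [Algebra ℚ F] :
    ((EC α β)⁄F).a₂ = algebraMap ℚ F α := by simp [EC]

@[simp] theorem EC_a₄ (α β : ℚ) (F : Type*) [Field F] [Algebra ℚ F] :
    ((EC α β)⁄F).a₄ = algebraMap ℚ F β := by simp [EC]

end Fermat.Agent.S05Lib
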