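import Mathlib

set_option autoImplicit false

/-!
# S05, part A1: identities on the curve `y² = x (x² + α x + β)`

`W` is a Weierstrass curve over a field with `a₁ = a₃ = a₆ = 0`; `α = W.a₂`, `β = W.a₄`.
-/

namespace Fermat.Agent.S05Lib

open WeierstrassCurve WeierstrassCurve.Affine WeierstrassCurve.Affine.Point

/-- `W` has the shape `y² = x (x² + a₂ x + a₄)`. -/
structure IsShort {R : Type*} [CommRing R] (W : WeierstrassCurve R) : Prop where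
  a₁ : W.a₁ = 0
  a₃ : W.a₃ = 0
  a₆ : W.a₆ = 0

variable {K : Type*} [Field K] {W : Affine K}

theorem IsShort.equation_iff (hW : IsShort W) (x y : K) :
    W.Equation x y ↔ y ^ 2 = x * (x ^ 2 + W.a₂ * x + W.a₄) := by
  rw [Affine.equation_iff, hW.a₁, hW.a₃, hW.a₆]
  constructor <;> intro h <;> linear_combination h

theorem IsShort.eq_of_nonsingular (hW : IsShort W) {x y : K} (h : W.Nonsingular x y) :
    y ^ 2 = x * (x ^ 2 + W.a₂ * x + W.a₄) :=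
  (hW.equation_iff x y).mp h.1

theorem IsShort.negY (hW : IsShort W) (x y : K) : W.negY x y = -y := by
  simp [Affine.negY, hW.a₁, hW.a₃]

theorem IsShort.neg_some (hW : IsShort W) {x y : K} (h : W.Nonsingular x y) :
    ∃ h' : W.Nonsingular x (-y), -(Point.some x y h) = Point.some x (-y) h' := by
  have h' := (Affine.nonsingular_neg x y).mpr h
  rw [hW.negY] at h'
  refine ⟨h', ?_⟩
  rw [Point.neg_some]
  simp only [hW.negY]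

variable [DecidableEq K]

/-- (I1), sum. -/
theorem IsShort.add_of_X_ne (hW : IsShort W) {x₁ y₁ x₂ y₂ : K} (h₁ : W.Nonsingular x₁ y₁)
    (h₂ : W.Nonsingular x₂ y₂) (hx : x₁ ≠ x₂) :
    ∃ (x₃ y₃ : K) (h₃ : W.Nonsingular x₃ y₃),
      Point.some x₁ y₁ h₁ + Point.some x₂ y₂ h₂ = Point.some x₃ y₃ h₃ ∧
      x₃ = ((y₁ - y₂) / (x₁ - x₂)) ^ 2 - W.a₂ - x₁ - x₂ ∧
      x₃ * (x₁ - x₂) ^ 2 = (x₁ * x₂ + W.a₄) * (x₁ + x₂) + 2 * W.a₂ * x₁ * x₂ - 2 * y₁ * y₂ := by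
  have e₁ := hW.eq_of_nonsingular h₁
  have e₂ := hW.eq_of_nonsingular h₂
  have hx' : x₁ - x₂ ≠ 0 := sub_ne_zero.mpr hx
  have key : W.addX x₁ x₂ (W.slope x₁ x₂ y₁ y₂) =
      ((y₁ - y₂) / (x₁ - x₂)) ^ 2 - W.a₂ - x₁ - x₂ := by
    rw [Affine.slope_of_X_ne hx, Affine.addX, hW.a₁]; ring
  refine ⟨_, _, _, Point.add_of_X_ne hx, key, ?_⟩
  rw [key]
  field_simp
  linear_combination e₁ + e₂

/-- (I1), difference. -/
theorem IsShort.sub_of_X_ne (hW : IsShort W) {x₁ y₁ x₂ y₂ : K} (h₁ : W.Nonsingular x₁ y₁)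
    (h₂ : W.Nonsingular x₂ y₂) (hx : x₁ ≠ x₂) :
    ∃ (x₃ y₃ : K) (h₃ : W.Nonsingular x₃ y₃),
      Point.some x₁ y₁ h₁ - Point.some x₂ y₂ h₂ = Point.some x₃ y₃ h₃ ∧
      x₃ = ((y₁ + y₂) / (x₁ - x₂)) ^ 2 - W.a₂ - x₁ - x₂ ∧
      x₃ * (x₁ - x₂) ^ 2 = (x₁ * x₂ + W.a₄) * (x₁ + x₂) + 2 * W.a₂ * x₁ * x₂ + 2 * y₁ * y₂ := by
  obtain ⟨h₂', hneg⟩ := hW.neg_some h₂
  obtain ⟨x₃, y₃, h₃, e, e', e''⟩ := hW.add_of_X_ne h₁ h₂' hx
  refine ⟨x₃, y₃, h₃, by rw [sub_eq_add_neg, hneg, e], by rw [e', sub_neg_eq_add], ?_⟩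
  rw [e'']; ring

omit [DecidableEq K] in
/-- (I1'). -/
theorem IsShort.mul_N (hW : IsShort W) {x₁ y₁ x₂ y₂ : K} (h₁ : W.Nonsingular x₁ y₁)
    (h₂ : W.Nonsingular x₂ y₂) :
    ((x₁ * x₂ + W.a₄) * (x₁ + x₂) + 2 * W.a₂ * x₁ * x₂ + 2 * y₁ * y₂) *
      ((x₁ * x₂ + W.a₄) * (x₁ + x₂) + 2 * W.a₂ * x₁ * x₂ - 2 * y₁ * y₂) =
      (x₁ * x₂ - W.a₄) ^ 2 * (x₁ - x₂) ^ 2 := by
  have e₁ := hW.eq_of_nonsingular h₁
  have e₂ := hW.eq_of_nonsingular h₂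
  linear_combination (-4 * y₂ ^ 2) * e₁ + (-4 * (x₁ * (x₁ ^ 2 + W.a₂ * x₁ + W.a₄))) * e₂

/-- (I2). -/
theorem IsShort.add_self_of_Y_ne (hW : IsShort W) {x y : K} (h : W.Nonsingular x y) (hy : y ≠ 0)
    (h2 : (2 : K) ≠ 0) :
    ∃ (x₃ y₃ : K) (h₃ : W.Nonsingular x₃ y₃),
      Point.some x y h + Point.some x y h = Point.some x₃ y₃ h₃ ∧
      x₃ * (4 * y ^ 2) = (x ^ 2 - W.a₄) ^ 2 := by
  have e := hW.eq_of_nonsingular h
  have hne : y ≠ W.negY x y := by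
    rw [hW.negY]
    intro h0
    have : 2 * y = 0 := by linear_combination h0
    exact hy ((mul_eq_zero.mp this).resolve_left h2)
  refine ⟨_, _, _, Point.add_self_of_Y_ne hne, ?_⟩
  rw [Affine.slope_of_Y_ne rfl hne, Affine.addX, hW.a₁, hW.negY]
  have h2y : y - -y = 2 * y := by ring
  rw [h2y]
  have h2y' : 2 * y ≠ 0 := mul_ne_zero h2 hy
  have e1 : (((3 * x ^ 2 + 2 * W.a₂ * x + W.a₄ - 0 * y) / (2 * y)) ^ 2 +
      0 * ((3 * x ^ 2 + 2 * W.a₂ * x + W.a₄ - 0 * y) / (2 * y)) - W.a₂ - x - x) * (4 * y ^ 2) =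
      (3 * x ^ 2 + 2 * W.a₂ * x + W.a₄) ^ 2 - (W.a₂ + 2 * x) * (4 * y ^ 2) := by
    field_simp
    ring
  rw [e1, e]
  ring

theorem IsShort.add_self_of_Y_eq (hW : IsShort W) {x y : K} (h : W.Nonsingular x y) (hy : y = 0) :
    Point.some x y h + Point.some x y h = 0 := by
  apply Point.add_self_of_Y_eq
  rw [hW.negY, hy, _root_.neg_zero]

omit [DecidableEq K] in
/-- Two points with the same `x` are equal or opposite. -/
theorem IsShort.eq_or_eq_neg_of_X_eq (hW : IsShort W) {x y₁ y₂ : K} (h₁ : W.Nonsingular x y₁)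
    (h₂ : W.Nonsingular x y₂) : y₁ = y₂ ∨ y₁ = -y₂ := by
  have e₁ := hW.eq_of_nonsingular h₁
  have e₂ := hW.eq_of_nonsingular h₂
  exact sq_eq_sq_iff_eq_or_eq_neg.mp (e₁.trans e₂.symm)

end Fermat.Agent.S05Lib
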