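import Mathlib
import Fermat.Prelude.Def_FLTPrelim_FreyPackage
import Fermat.Prelude.Def_FLTPrelim_GaloisRep
import Fermat.Prelude.Def_FLTPrelim_Ramification
import Fermat.Agent.S05.Short

set_option autoImplicit false

/-!
# S05, part A2: from the Frey curve to `y² = x (x² + α x + β)`
-/

namespace Fermat.Agent.S05Lib

open WeierstrassCurve WeierstrassCurve.Affine WeierstrassCurve.Affine.Point

/-- `W₂` is obtained from `W₁ : y² + x y = x³ + a₂ x² + a₄ x` by `(x, y) ↦ (4 x - e, 8 y + 4 x)`. -/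
structure IsFreyChange {R : Type*} [CommRing R] (W₁ W₂ : WeierstrassCurve R) (e : R) : Prop where
  a₁ : W₁.a₁ = 1
  a₃ : W₁.a₃ = 0
  a₆ : W₁.a₆ = 0
  short : IsShort W₂
  c₂ : 4 * W₁.a₂ + 1 = W₂.a₂ - 3 * e
  c₄ : 16 * W₁.a₄ = 3 * e ^ 2 - 2 * W₂.a₂ * e + W₂.a₄
  c₆ : 0 = -e ^ 3 + W₂.a₂ * e ^ 2 - W₂.a₄ * e

theorem IsShort.map {R S : Type*} [CommRing R] [CommRing S] {W : WeierstrassCurve R}
    (h : IsShort W) (f : R →+* S) : IsShort (W.map f) where
  a₁ := by simp [h.a₁]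
  a₃ := by simp [h.a₃]
  a₆ := by simp [h.a₆]

theorem IsFreyChange.map {R S : Type*} [CommRing R] [CommRing S] {W₁ W₂ : WeierstrassCurve R}
    {e : R} (h : IsFreyChange W₁ W₂ e) (f : R →+* S) :
    IsFreyChange (W₁.map f) (W₂.map f) (f e) where
  a₁ := by simp [h.a₁]
  a₃ := by simp [h.a₃]
  a₆ := by simp [h.a₆]
  short := h.short.map f
  c₂ := by simpa [map_ofNat] using congrArg f h.c₂
  c₄ := by simpa [map_ofNat] using congrArg f h.c₄
  c₆ := by simpa using congrArg f h.c₆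

section Field

variable {K : Type*} [Field K] {W₁ W₂ : Affine K} {e : K}

theorem some_congr {W : Affine K} {x x' y y' : K} (hx : x = x') (hy : y = y')
    (h : W.Nonsingular x y) (h' : W.Nonsingular x' y') :
    Point.some x y h = Point.some x' y' h' := by
  subst hx hy; rfl

theorem IsFreyChange.nonsingular (hc : IsFreyChange W₁ W₂ e) (h2 : (2 : K) ≠ 0) {x y : K}
    (h : W₁.Nonsingular x y) : W₂.Nonsingular (4 * x - e) (8 * y + 4 * x) := by
  rw [Affine.nonsingular_iff'] at h ⊢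
  obtain ⟨heq, hns⟩ := h
  rw [Affine.equation_iff] at heq
  rw [hc.a₁, hc.a₃, hc.a₆] at heq
  rw [hc.a₁, hc.a₃] at hns
  refine ⟨?_, ?_⟩
  · rw [hc.short.equation_iff]
    linear_combination 64 * heq + 16 * x ^ 2 * hc.c₂ + 4 * x * hc.c₄ + hc.c₆
  · rw [hc.short.a₁, hc.short.a₃]
    by_contra hcon
    push Not at hcon
    obtain ⟨hX, hY⟩ := hcon
    have h8 : (8 : K) ≠ 0 := by
      have : (8 : K) = 2 ^ 3 := by norm_num
      rw [this]; exact pow_ne_zero 3 h2
    have h16 : (16 : K) ≠ 0 := by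
      have : (16 : K) = 2 ^ 4 := by norm_num
      rw [this]; exact pow_ne_zero 4 h2
    have hy : 2 * y + 1 * x + 0 = 0 := by
      have : 8 * (2 * y + 1 * x + 0) = 0 := by linear_combination hY
      exact (mul_eq_zero.mp this).resolve_left h8
    have hx : 1 * y - (3 * x ^ 2 + 2 * W₁.a₂ * x + W₁.a₄) = 0 := by
      have : 16 * (1 * y - (3 * x ^ 2 + 2 * W₁.a₂ * x + W₁.a₄)) = 0 := by
        linear_combination hX + 8 * hy - 8 * x * hc.c₂ - hc.c₄
      exact (mul_eq_zero.mp this).resolve_left h16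
    rcases hns with h | h
    · exact h hx
    · exact h hy

variable [DecidableEq K]

/-- The change of variables as a map on points. -/
noncomputable def IsFreyChange.toFun (hc : IsFreyChange W₁ W₂ e) (h2 : (2 : K) ≠ 0) :
    W₁.Point → W₂.Point
  | 0 => 0
  | Point.some _ _ h => Point.some _ _ (hc.nonsingular h2 h)

omit [DecidableEq K] in
theorem IsFreyChange.negY (hc : IsFreyChange W₁ W₂ e) (x y : K) :
    W₂.negY (4 * x - e) (8 * y + 4 * x) = 8 * W₁.negY x y + 4 * x := by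
  rw [hc.short.negY, Affine.negY, hc.a₁, hc.a₃]; ring

theorem IsFreyChange.slope (hc : IsFreyChange W₁ W₂ e) (h2 : (2 : K) ≠ 0) {x₁ y₁ x₂ y₂ : K}
    (h₁ : W₁.Equation x₁ y₁) (h₂ : W₁.Equation x₂ y₂) (hxy : ¬(x₁ = x₂ ∧ y₁ = W₁.negY x₂ y₂)) :
    W₂.slope (4 * x₁ - e) (4 * x₂ - e) (8 * y₁ + 4 * x₁) (8 * y₂ + 4 * x₂) =
      2 * W₁.slope x₁ x₂ y₁ y₂ + 1 := by
  have h4 : (4 : K) ≠ 0 := by
    have : (4 : K) = 2 ^ 2 := by norm_num
    rw [this]; exact pow_ne_zero 2 h2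
  have h8 : (8 : K) ≠ 0 := by
    have : (8 : K) = 2 ^ 3 := by norm_num
    rw [this]; exact pow_ne_zero 3 h2
  by_cases hx : x₁ = x₂
  · subst hx
    have hy : y₁ ≠ W₁.negY x₁ y₂ := fun h => hxy ⟨rfl, h⟩
    have hy' : 8 * y₁ + 4 * x₁ ≠ W₂.negY (4 * x₁ - e) (8 * y₂ + 4 * x₁) := by
      rw [hc.negY]
      intro h
      apply hy
      have : 8 * (y₁ - W₁.negY x₁ y₂) = 0 := by linear_combination h
      exact sub_eq_zero.mp ((mul_eq_zero.mp this).resolve_left h8)
    have hyy : y₁ = y₂ := Affine.Y_eq_of_Y_ne h₁ h₂ rfl hy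
    subst hyy
    have hD : y₁ - W₁.negY x₁ y₁ ≠ 0 := sub_ne_zero.mpr hy
    rw [Affine.slope_of_Y_ne rfl hy, Affine.slope_of_Y_ne rfl hy', hc.negY, hc.short.a₁, hc.a₁]
    have e1 : 8 * y₁ + 4 * x₁ - (8 * W₁.negY x₁ y₁ + 4 * x₁) = 8 * (y₁ - W₁.negY x₁ y₁) := by ring
    have e2 : 3 * (4 * x₁ - e) ^ 2 + 2 * W₂.a₂ * (4 * x₁ - e) + W₂.a₄ - 0 * (8 * y₁ + 4 * x₁) =
        8 * (2 * (3 * x₁ ^ 2 + 2 * W₁.a₂ * x₁ + W₁.a₄) + x₁) := by
      linear_combination (-8 * x₁) * hc.c₂ - hc.c₄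
    have e3 : W₁.negY x₁ y₁ = -y₁ - x₁ := by rw [Affine.negY, hc.a₁, hc.a₃]; ring
    rw [e1, e2, mul_div_mul_left _ _ h8]
    rw [e3] at hD ⊢
    field_simp
    ring
  · have hx' : 4 * x₁ - e ≠ 4 * x₂ - e := by
      intro h
      apply hx
      have : 4 * (x₁ - x₂) = 0 := by linear_combination h
      exact sub_eq_zero.mp ((mul_eq_zero.mp this).resolve_left h4)
    rw [Affine.slope_of_X_ne hx, Affine.slope_of_X_ne hx']
    have h1 : x₁ - x₂ ≠ 0 := sub_ne_zero.mpr hx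
    have h3 : 4 * x₁ - e - (4 * x₂ - e) = 4 * (x₁ - x₂) := by ring
    rw [h3]
    field_simp
    ring

/-- The change of variables as a group homomorphism. -/
noncomputable def IsFreyChange.hom (hc : IsFreyChange W₁ W₂ e) (h2 : (2 : K) ≠ 0) :
    W₁.Point →+ W₂.Point where
  toFun := hc.toFun h2
  map_zero' := rfl
  map_add' := by
    have h4 : (4 : K) ≠ 0 := by
      have : (4 : K) = 2 ^ 2 := by norm_num
      rw [this]; exact pow_ne_zero 2 h2
    have h8 : (8 : K) ≠ 0 := by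
      have : (8 : K) = 2 ^ 3 := by norm_num
      rw [this]; exact pow_ne_zero 3 h2
    rintro (_ | ⟨x₁, y₁, h₁⟩) (_ | ⟨x₂, y₂, h₂⟩)
    any_goals rfl
    by_cases hxy : x₁ = x₂ ∧ y₁ = W₁.negY x₂ y₂
    · rw [Point.add_of_Y_eq hxy.left hxy.right]
      change (0 : W₂.Point) = Point.some _ _ (hc.nonsingular h2 h₁) + Point.some _ _ (hc.nonsingular h2 h₂)
      rw [Point.add_of_Y_eq (by rw [hxy.left]) (by rw [hc.negY, hxy.right, hxy.left])]
    · have hxy' : ¬(4 * x₁ - e = 4 * x₂ - e ∧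
          8 * y₁ + 4 * x₁ = W₂.negY (4 * x₂ - e) (8 * y₂ + 4 * x₂)) := by
        rintro ⟨hx, hy⟩
        have hx' : x₁ = x₂ := by
          have : 4 * (x₁ - x₂) = 0 := by linear_combination hx
          exact sub_eq_zero.mp ((mul_eq_zero.mp this).resolve_left h4)
        refine hxy ⟨hx', ?_⟩
        rw [hc.negY, hx'] at hy
        have : 8 * (y₁ - W₁.negY x₂ y₂) = 0 := by linear_combination hy
        exact sub_eq_zero.mp ((mul_eq_zero.mp this).resolve_left h8)
      rw [Point.add_some hxy]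
      change Point.some _ _ (hc.nonsingular h2 (Affine.nonsingular_add h₁ h₂ hxy)) =
        Point.some _ _ (hc.nonsingular h2 h₁) + Point.some _ _ (hc.nonsingular h2 h₂)
      rw [Point.add_some hxy']
      have hX : 4 * W₁.addX x₁ x₂ (W₁.slope x₁ x₂ y₁ y₂) - e =
          W₂.addX (4 * x₁ - e) (4 * x₂ - e)
            (W₂.slope (4 * x₁ - e) (4 * x₂ - e) (8 * y₁ + 4 * x₁) (8 * y₂ + 4 * x₂)) := by
        rw [hc.slope h2 h₁.1 h₂.1 hxy, Affine.addX, Affine.addX, hc.a₁, hc.short.a₁]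
        linear_combination (-1 : K) * hc.c₂
      apply some_congr hX
      rw [Affine.addY, Affine.addY, ← hX, hc.short.negY, Affine.negY, hc.a₁, hc.a₃,
        Affine.negAddY, Affine.negAddY, ← hX, hc.slope h2 h₁.1 h₂.1 hxy]
      ring

theorem IsFreyChange.hom_some (hc : IsFreyChange W₁ W₂ e) (h2 : (2 : K) ≠ 0) {x y : K}
    (h : W₁.Nonsingular x y) :
    hc.hom h2 (Point.some x y h) = Point.some _ _ (hc.nonsingular h2 h) := rfl

theorem IsFreyChange.hom_injective (hc : IsFreyChange W₁ W₂ e) (h2 : (2 : K) ≠ 0) :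
    Function.Injective (hc.hom h2) := by
  have h4 : (4 : K) ≠ 0 := by
    have : (4 : K) = 2 ^ 2 := by norm_num
    rw [this]; exact pow_ne_zero 2 h2
  have h8 : (8 : K) ≠ 0 := by
    have : (8 : K) = 2 ^ 3 := by norm_num
    rw [this]; exact pow_ne_zero 3 h2
  rintro (_ | ⟨x₁, y₁, h₁⟩) (_ | ⟨x₂, y₂, h₂⟩) h
  · rfl
  · exact absurd h.symm (Point.some_ne_zero _)
  · exact absurd h (Point.some_ne_zero _)
  · rw [hc.hom_some, hc.hom_some] at h
    have hx := (Point.some.inj h).left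
    have hy := (Point.some.inj h).right
    have hx' : x₁ = x₂ := by
      have : 4 * (x₁ - x₂) = 0 := by linear_combination hx
      exact sub_eq_zero.mp ((mul_eq_zero.mp this).resolve_left h4)
    have hy' : y₁ = y₂ := by
      rw [hx'] at hy
      have : 8 * (y₁ - y₂) = 0 := by linear_combination hy
      exact sub_eq_zero.mp ((mul_eq_zero.mp this).resolve_left h8)
    exact some_congr hx' hy' _ _

end Field

section Galois

variable {K : Type*} [Field K] [DecidableEq K] [Algebra ℚ K] {W₁ W₂ : Affine ℚ} {e : ℚ}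

/-- The change of variables over an extension `K` of `ℚ`. -/
noncomputable def IsFreyChange.homK (hc : IsFreyChange W₁ W₂ e) (K : Type*) [Field K]
    [DecidableEq K] [Algebra ℚ K] : (W₁⁄K).Point →+ (W₂⁄K).Point :=
  (hc.map (algebraMap ℚ K)).hom (by
    have : CharZero K := algebraRat.charZero K
    exact two_ne_zero)

theorem IsFreyChange.homK_injective (hc : IsFreyChange W₁ W₂ e) :
    Function.Injective (hc.homK K) :=
  IsFreyChange.hom_injective _ _

theorem IsFreyChange.homK_some (hc : IsFreyChange W₁ W₂ e) {x y : K}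
    (h : (W₁⁄K).Nonsingular x y) :
    ∃ h' : (W₂⁄K).Nonsingular (4 * x - algebraMap ℚ K e) (8 * y + 4 * x),
      hc.homK K (Point.some x y h) = Point.some _ _ h' :=
  ⟨_, rfl⟩

theorem IsFreyChange.homK_smul (hc : IsFreyChange W₁ W₂ e) (σ : K ≃ₐ[ℚ] K) (P : (W₁⁄K).Point) :
    hc.homK K (σ • P) = σ • hc.homK K P := by
  rcases P with _ | ⟨x, y, h⟩
  · rfl
  · rw [algEquiv_smul_def, algEquiv_smul_def, Point.map_some]
    obtain ⟨h1, e1⟩ := hc.homK_some h
    obtain ⟨h2, e2⟩ := hc.homK_some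
      ((W₁.baseChange_nonsingular (σ : K →ₐ[ℚ] K).injective x y).mpr h)
    rw [e1, Point.map_some]
    refine e2.trans ?_
    apply some_congr
    · simp [map_ofNat]
    · simp [map_ofNat]

/-- Unramifiedness transfers along the change of variables. -/
theorem IsFreyChange.unramifiedAt (hc : IsFreyChange W₁ W₂ e) {n q : ℕ}
    (h : GaloisRepUnramifiedAt (K := K) ℚ W₂ n q) : GaloisRepUnramifiedAt (K := K) ℚ W₁ n q := by
  intro A hA σ hσ x
  have hx : (n : ℤ) • (x : (W₁⁄K).Point) = 0 := (Submodule.mem_torsionBy_iff _ _).mp x.2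
  have hy : hc.homK K (x : (W₁⁄K).Point) ∈ Submodule.torsionBy ℤ (W₂⁄K).Point n := by
    rw [Submodule.mem_torsionBy_iff, ← map_zsmul, hx, _root_.map_zero]
  have h1 := h A hA σ hσ ⟨_, hy⟩
  have h2 : σ • hc.homK K (x : (W₁⁄K).Point) = hc.homK K (x : (W₁⁄K).Point) :=
    congrArg Subtype.val h1
  rw [← hc.homK_smul] at h2
  exact Subtype.ext (hc.homK_injective h2)

end Galois

/-- The curve `y² = x (x² + α x + β)` over `ℚ`. -/
def shortCurve (α β : ℚ) : WeierstrassCurve ℚ := ⟨0, α, 0, β, 0⟩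

theorem isShort_shortCurve (α β : ℚ) : IsShort (shortCurve α β) := ⟨rfl, rfl, rfl⟩

@[simp] theorem shortCurve_a₂ (α β : ℚ) : (shortCurve α β).a₂ = α := rfl
@[simp] theorem shortCurve_a₄ (α β : ℚ) : (shortCurve α β).a₄ = β := rfl

/-- `e = 0`: the Frey curve becomes `y² = x (x² + (b - a) x - a b)`, `a = P.a ^ p`, `b = P.b ^ p`. -/
theorem isFreyChange_zero (P : FreyPackage) :
    IsFreyChange P.freyCurve
      (shortCurve ((P.b : ℚ) ^ P.p - (P.a : ℚ) ^ P.p) (-((P.a : ℚ) ^ P.p * (P.b : ℚ) ^ P.p))) 0 where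
  a₁ := rfl
  a₃ := rfl
  a₆ := rfl
  short := isShort_shortCurve _ _
  c₂ := by simp [FreyPackage.freyCurve]; ring
  c₄ := by simp [FreyPackage.freyCurve]; ring
  c₆ := by simp

/-- `e = a`: the Frey curve becomes `y² = x (x² + (2 a + b) x + a (a + b))`. -/
theorem isFreyChange_a (P : FreyPackage) :
    IsFreyChange P.freyCurve
      (shortCurve (2 * (P.a : ℚ) ^ P.p + (P.b : ℚ) ^ P.p)
        ((P.a : ℚ) ^ P.p * ((P.a : ℚ) ^ P.p + (P.b : ℚ) ^ P.p))) ((P.a : ℚ) ^ P.p) where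
  a₁ := rfl
  a₃ := rfl
  a₆ := rfl
  short := isShort_shortCurve _ _
  c₂ := by simp [FreyPackage.freyCurve]; ring
  c₄ := by simp [FreyPackage.freyCurve]; ring
  c₆ := by simp; ring

end Fermat.Agent.S05Lib
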