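import Fermat.Agent.S05.Defs
set_option autoImplicit false
set_option linter.unusedSectionVars false

/-!
# S05: coordinates and `x`-coordinate identities on `Y² = X (X² + a₂ X + a₄)`
-/

namespace Fermat.Agent.S05Lib

open WeierstrassCurve WeierstrassCurve.Affine WeierstrassCurve.Affine.Point

variable {F : Type*} [Field F] {W : WeierstrassCurve.Affine F}

/-- the `x`-coordinate (junk value `0` at infinity). -/
def xc : W.Point → F
  | .zero => 0
  | .some x _ _ => x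

/-- the `y`-coordinate (junk value `0` at infinity). -/
def yc : W.Point → F
  | .zero => 0
  | .some _ y _ => y

@[simp] theorem xc_zero : xc (0 : W.Point) = 0 := rfl
@[simp] theorem yc_zero : yc (0 : W.Point) = 0 := rfl
@[simp] theorem xc_some {x y : F} (h : W.Nonsingular x y) : xc (Point.some x y h) = x := rfl
@[simp] theorem yc_some {x y : F} (h : W.Nonsingular x y) : yc (Point.some x y h) = y := rfl

theorem exists_eq_some {P : W.Point} (hP : P ≠ 0) :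
    ∃ h : W.Nonsingular (xc P) (yc P), P = Point.some (xc P) (yc P) h := by
  cases P with
  | zero => exact absurd rfl hP
  | some x y h => exact ⟨h, rfl⟩

theorem xc_neg (P : W.Point) : xc (-P) = xc P := by
  cases P <;> rfl

theorem yc_neg (hW : IsE W) (P : W.Point) : yc (-P) = -yc P := by
  cases P with
  | zero => simp [← zero_def]
  | some x y h =>
    rw [neg_some, yc_some, yc_some, negY, hW.a₁, hW.a₃]
    ring

theorem curve_eq (hW : IsE W) (P : W.Point) :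
    yc P ^ 2 = xc P ^ 3 + W.a₂ * xc P ^ 2 + W.a₄ * xc P := by
  cases P with
  | zero => simp [← zero_def]
  | some x y h =>
    have := (equation_iff x y).mp h.1
    rw [hW.a₁, hW.a₃, hW.a₆] at this
    simp only [xc_some, yc_some]
    linear_combination this

theorem eq_or_eq_neg_of_xc_eq {P Q : W.Point} (hP : P ≠ 0) (hQ : Q ≠ 0) (h : xc P = xc Q) :
    P = Q ∨ P = -Q := by
  obtain ⟨h1, e1⟩ := exists_eq_some hP
  obtain ⟨h2, e2⟩ := exists_eq_some hQ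
  rw [e1, e2]
  exact X_eq_iff.mp h

variable [DecidableEq F]

theorem xc_ne_of_ne {P Q : W.Point} (hP : P ≠ 0) (hQ : Q ≠ 0) (h1 : P - Q ≠ 0) (h2 : P + Q ≠ 0) :
    xc P ≠ xc Q := by
  intro h
  rcases eq_or_eq_neg_of_xc_eq hP hQ h with h | h
  · exact h1 (by rw [h, sub_self])
  · exact h2 (by rw [h, neg_add_cancel])

theorem add_ne_zero_of_xc_ne {P Q : W.Point} (h : xc P ≠ xc Q) : P + Q ≠ 0 := by
  intro h0
  have : P = -Q := eq_neg_of_add_eq_zero_left h0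
  exact h (by rw [this, xc_neg])

theorem sub_ne_zero_of_xc_ne {P Q : W.Point} (h : xc P ≠ xc Q) : P - Q ≠ 0 := by
  intro h0
  exact h (by rw [sub_eq_zero.mp h0])

/-- (I1), sum. -/
theorem xc_add (hW : IsE W) {P Q : W.Point} (hP : P ≠ 0) (hQ : Q ≠ 0) (h : xc P ≠ xc Q) :
    xc (P + Q) * (xc P - xc Q) ^ 2 =
      (xc P * xc Q + W.a₄) * (xc P + xc Q) + 2 * W.a₂ * (xc P * xc Q) - 2 * (yc P * yc Q) := by
  have c1 := curve_eq hW P
  have c2 := curve_eq hW Q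
  obtain ⟨h1, e1⟩ := exists_eq_some hP
  obtain ⟨h2, e2⟩ := exists_eq_some hQ
  have e3 : xc (P + Q) = W.addX (xc P) (xc Q) (W.slope (xc P) (xc Q) (yc P) (yc Q)) := by
    conv_lhs => rw [e1, e2, add_of_X_ne h, xc_some]
  rw [e3, slope_of_X_ne h, addX, hW.a₁]
  have hne : xc P - xc Q ≠ 0 := sub_ne_zero.mpr h
  field_simp
  linear_combination c1 + c2

/-- (I1), difference. -/
theorem xc_sub (hW : IsE W) {P Q : W.Point} (hP : P ≠ 0) (hQ : Q ≠ 0) (h : xc P ≠ xc Q) :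
    xc (P - Q) * (xc P - xc Q) ^ 2 =
      (xc P * xc Q + W.a₄) * (xc P + xc Q) + 2 * W.a₂ * (xc P * xc Q) + 2 * (yc P * yc Q) := by
  have := xc_add hW hP (neg_ne_zero.mpr hQ) (by rwa [xc_neg])
  rw [xc_neg, yc_neg hW, ← sub_eq_add_neg] at this
  rw [this]
  ring

/-- (I1'), purely algebraic. -/
theorem N_mul_N {x₁ y₁ x₂ y₂ α β : F} (c1 : y₁ ^ 2 = x₁ ^ 3 + α * x₁ ^ 2 + β * x₁)
    (c2 : y₂ ^ 2 = x₂ ^ 3 + α * x₂ ^ 2 + β * x₂) :
    ((x₁ * x₂ + β) * (x₁ + x₂) + 2 * α * (x₁ * x₂) + 2 * (y₁ * y₂)) *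
      ((x₁ * x₂ + β) * (x₁ + x₂) + 2 * α * (x₁ * x₂) - 2 * (y₁ * y₂)) =
      (x₁ * x₂ - β) ^ 2 * (x₁ - x₂) ^ 2 := by
  have : (y₁ * y₂) ^ 2 = (x₁ ^ 3 + α * x₁ ^ 2 + β * x₁) * (x₂ ^ 3 + α * x₂ ^ 2 + β * x₂) := by
    rw [mul_pow, c1, c2]
  linear_combination (-4) * this

/-- (I1''). -/
theorem xc_add_mul_xc_sub (hW : IsE W) {P Q : W.Point} (hP : P ≠ 0) (hQ : Q ≠ 0)
    (h : xc P ≠ xc Q) :
    xc (P + Q) * xc (P - Q) * (xc P - xc Q) ^ 2 = (xc P * xc Q - W.a₄) ^ 2 := by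
  have e1 := xc_add hW hP hQ h
  have e2 := xc_sub hW hP hQ h
  have e3 := N_mul_N (curve_eq hW P) (curve_eq hW Q)
  have hne : (xc P - xc Q) ^ 2 ≠ 0 := pow_ne_zero 2 (sub_ne_zero.mpr h)
  apply mul_right_cancel₀ hne
  rw [← e3, ← e1, ← e2]
  ring

theorem add_self_eq_zero_of_yc_eq_zero (hW : IsE W) {P : W.Point} (hy : yc P = 0) :
    P + P = 0 := by
  by_cases hP : P = 0
  · rw [hP, add_zero]
  obtain ⟨h1, e1⟩ := exists_eq_some hP
  rw [e1]
  apply add_self_of_Y_eq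
  rw [negY, hW.a₁, hW.a₃, hy]
  ring

theorem yc_ne_negY (hW : IsE W) (h2 : (2 : F) ≠ 0) {P : W.Point} (hy : yc P ≠ 0) :
    yc P ≠ W.negY (xc P) (yc P) := by
  rw [negY, hW.a₁, hW.a₃]
  intro h
  apply hy
  have : 2 * yc P = 0 := by linear_combination h
  exact (mul_eq_zero.mp this).resolve_left h2

theorem add_self_ne_zero (hW : IsE W) (h2 : (2 : F) ≠ 0) {P : W.Point} (hy : yc P ≠ 0) :
    P + P ≠ 0 := by
  have hP : P ≠ 0 := by
    rintro rfl
    exact hy rfl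
  obtain ⟨h1, e1⟩ := exists_eq_some hP
  rw [e1, add_self_of_Y_ne (yc_ne_negY hW h2 hy)]
  exact some_ne_zero _

/-- (I2). -/
theorem xc_add_self (hW : IsE W) (h2 : (2 : F) ≠ 0) {P : W.Point} (hy : yc P ≠ 0) :
    xc (P + P) * (4 * yc P ^ 2) = (xc P ^ 2 - W.a₄) ^ 2 := by
  have hP : P ≠ 0 := by
    rintro rfl
    exact hy rfl
  have c1 := curve_eq hW P
  obtain ⟨h1, e1⟩ := exists_eq_some hP
  have hne := yc_ne_negY hW h2 hy
  have e3 : xc (P + P) = W.addX (xc P) (xc P) (W.slope (xc P) (xc P) (yc P) (yc P)) := by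
    conv_lhs => rw [e1, add_self_of_Y_ne hne, xc_some]
  rw [e3, slope_of_Y_ne rfl hne, addX, negY, hW.a₁, hW.a₃]
  have h3 : yc P - (-yc P - 0 * xc P - 0) = 2 * yc P := by ring
  rw [h3]
  field_simp
  linear_combination (-(16 * W.a₂ + 32 * xc P)) * c1

end Fermat.Agent.S05Lib
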