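import Mathlib
import Fermat.Prelude.Def_FLTPrelim_GaloisRep
import Fermat.Prelude.Def_FLTPrelim_Ramification

set_option autoImplicit false

/-!
# S05, part A3: facts on the inertia subgroup
-/

namespace Fermat.Agent.S05Lib

open WeierstrassCurve WeierstrassCurve.Affine WeierstrassCurve.Affine.Point
open scoped Pointwise

variable {k : Type*} {K : Type*} [Field k] [Field K] [Algebra k K]

/-- Elements of the decomposition group preserve `A`. -/
theorem mem_of_mem_decomposition {A : ValuationSubring K} {σ : K ≃ₐ[k] K}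
    (hσ : σ ∈ A.decompositionSubgroup k) {x : K} (hx : x ∈ A) : σ x ∈ A := by
  have h : σ • A = A := hσ
  rw [← h]
  exact ⟨x, hx, rfl⟩

theorem mem_iff_of_mem_decomposition {A : ValuationSubring K} {σ : K ≃ₐ[k] K}
    (hσ : σ ∈ A.decompositionSubgroup k) (x : K) : σ x ∈ A ↔ x ∈ A := by
  refine ⟨fun hx => ?_, mem_of_mem_decomposition hσ⟩
  have := mem_of_mem_decomposition (inv_mem hσ) hx
  simpa using this

theorem mem_decomposition_of_mem_inertia {A : ValuationSubring K} {σ : K ≃ₐ[k] K}
    (hσ : σ ∈ A.inertiaSubgroupIn k) : σ ∈ A.decompositionSubgroup k := by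
  obtain ⟨τ, -, rfl⟩ := hσ
  exact τ.2

/-- Inertia preserves `A`. -/
theorem inertia_mem_iff {A : ValuationSubring K} {σ : K ≃ₐ[k] K}
    (hσ : σ ∈ A.inertiaSubgroupIn k) (x : K) : σ x ∈ A ↔ x ∈ A :=
  mem_iff_of_mem_decomposition (mem_decomposition_of_mem_inertia hσ) x

theorem valuation_lt_one_iff_of_mem_decomposition {A : ValuationSubring K} {σ : K ≃ₐ[k] K}
    (hσ : σ ∈ A.decompositionSubgroup k) (x : K) :
    A.valuation (σ x) < 1 ↔ A.valuation x < 1 := by
  rw [← ValuationSubring.mem_nonunits_iff, ← ValuationSubring.mem_nonunits_iff,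
    ValuationSubring.mem_nonunits_iff_or, ValuationSubring.mem_nonunits_iff_or, ← map_inv₀,
    mem_iff_of_mem_decomposition hσ]
  simp

/-- Every element of an algebraic extension has a finite orbit under an automorphism. -/
theorem exists_pow_apply_eq [Algebra.IsAlgebraic k K] (σ : K ≃ₐ[k] K) (x : K) :
    ∃ n : ℕ, 0 < n ∧ (σ ^ n) x = x := by
  have hx : IsIntegral k x := (Algebra.IsAlgebraic.isAlgebraic x).isIntegral
  have hfin : ((minpoly k x).rootSet K).Finite := Polynomial.rootSet_finite _ _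
  have hmem : ∀ j : ℕ, (σ ^ j) x ∈ (minpoly k x).rootSet K := by
    intro j
    rw [Polynomial.mem_rootSet]
    refine ⟨minpoly.ne_zero hx, ?_⟩
    have : Polynomial.aeval ((σ ^ j) x) (minpoly k x) = (σ ^ j) (Polynomial.aeval x (minpoly k x)) := by
      exact Polynomial.aeval_algHom_apply ((σ ^ j : K ≃ₐ[k] K) : K →ₐ[k] K) x (minpoly k x)
    rw [this, minpoly.aeval, _root_.map_zero]
  have := hfin.to_subtype
  obtain ⟨i, j, hij, h⟩ := Finite.exists_ne_map_eq_of_infinite
    (fun j : ℕ => (⟨(σ ^ j) x, hmem j⟩ : (minpoly k x).rootSet K))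
  have h' : (σ ^ i) x = (σ ^ j) x := congrArg Subtype.val h
  have key : ∀ i j : ℕ, i < j → (σ ^ i) x = (σ ^ j) x → ∃ n : ℕ, 0 < n ∧ (σ ^ n) x = x := by
    intro i j hij h
    refine ⟨j - i, by omega, ?_⟩
    have e : σ ^ j = σ ^ i * σ ^ (j - i) := by rw [← pow_add]; congr 1; omega
    rw [e, AlgEquiv.mul_apply] at h
    exact ((σ ^ i).injective h).symm
  rcases lt_or_gt_of_ne hij with hlt | hlt
  · exact key i j hlt h'
  · exact key j i hlt h'.symm

theorem valuation_eq_of_mem_decomposition [Algebra.IsAlgebraic k K] {A : ValuationSubring K}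
    {σ : K ≃ₐ[k] K} (hσ : σ ∈ A.decompositionSubgroup k) (x : K) :
    A.valuation (σ x) = A.valuation x := by
  -- it suffices to exclude `v (σ x) < v x` for all `σ`, `x`
  have key : ∀ (τ : K ≃ₐ[k] K), τ ∈ A.decompositionSubgroup k → ∀ y : K,
      ¬ A.valuation (τ y) < A.valuation y := by
    intro τ hτ y hlt
    have hmono : ∀ n : ℕ, A.valuation ((τ ^ (n + 1)) y) < A.valuation y := by
      intro n
      induction n with
      | zero => simpa using hlt
      | succ n ih =>
        have hy0 : y ≠ 0 := by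
          rintro rfl
          simp at hlt
        have h1 : A.valuation ((τ ^ (n + 1)) (τ y / y)) < 1 := by
          rw [valuation_lt_one_iff_of_mem_decomposition (pow_mem hτ _), map_div₀]
          exact (div_lt_one₀ (by
            rw [zero_lt_iff]; exact (Valuation.ne_zero_iff _).mpr hy0)).mpr hlt
        rw [map_div₀, map_div₀] at h1
        have hy1 : (τ ^ (n + 1)) y ≠ 0 := (map_ne_zero_iff _ (τ ^ (n + 1)).injective).mpr hy0
        have h2 : A.valuation ((τ ^ (n + 1)) (τ y)) < A.valuation ((τ ^ (n + 1)) y) := by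
          rwa [div_lt_one₀ (by rw [zero_lt_iff]; exact (Valuation.ne_zero_iff _).mpr hy1)] at h1
        have e : (τ ^ (n + 1 + 1)) y = (τ ^ (n + 1)) (τ y) := by
          rw [pow_succ, AlgEquiv.mul_apply]
        rw [e]
        exact h2.trans ih
    obtain ⟨n, hn, hn'⟩ := exists_pow_apply_eq τ y
    obtain ⟨m, rfl⟩ : ∃ m, n = m + 1 := ⟨n - 1, by omega⟩
    have := hmono m
    rw [hn'] at this
    exact lt_irrefl _ this
  rcases lt_trichotomy (A.valuation (σ x)) (A.valuation x) with h | h | h
  · exact absurd h (key σ hσ x)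
  · exact h
  · exfalso
    refine key σ⁻¹ (inv_mem hσ) (σ x) ?_
    simpa using h

/-- Inertia preserves the valuation. -/
theorem inertia_valuation_eq [Algebra.IsAlgebraic k K] {A : ValuationSubring K} {σ : K ≃ₐ[k] K}
    (hσ : σ ∈ A.inertiaSubgroupIn k) (x : K) : A.valuation (σ x) = A.valuation x :=
  valuation_eq_of_mem_decomposition (mem_decomposition_of_mem_inertia hσ) x

/-- Inertia acts trivially on the residue field. -/
theorem inertia_valuation_sub_lt_one {A : ValuationSubring K} {σ : K ≃ₐ[k] K}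
    (hσ : σ ∈ A.inertiaSubgroupIn k) {x : K} (hx : x ∈ A) : A.valuation (σ x - x) < 1 := by
  obtain ⟨τ, hτ, rfl⟩ := hσ
  have h1 : MulSemiringAction.toRingAut (A.decompositionSubgroup k) (IsLocalRing.ResidueField A) τ
      = 1 := hτ
  have h2 : τ • IsLocalRing.residue A ⟨x, hx⟩ = IsLocalRing.residue A ⟨x, hx⟩ := by
    have := congrArg (fun f => f (IsLocalRing.residue A ⟨x, hx⟩)) h1
    simpa using this
  rw [← IsLocalRing.ResidueField.residue_smul] at h2
  have h3 : (τ • (⟨x, hx⟩ : A)) - ⟨x, hx⟩ ∈ IsLocalRing.maximalIdeal A := by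
    rw [← IsLocalRing.residue_eq_zero_iff, map_sub, h2, sub_self]
  rw [ValuationSubring.valuation_lt_one_iff] at h3
  exact h3

end Fermat.Agent.S05Lib
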