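import Fermat.Agent.S05.Val
set_option autoImplicit false
set_option linter.unusedSectionVars false

/-!
# S05: (L2) no `p`-torsion with `1 < v x`
-/

namespace Fermat.Agent.S05Lib

open WeierstrassCurve WeierstrassCurve.Affine WeierstrassCurve.Affine.Point

section Torsion

variable {G : Type*} [AddCommGroup G]

theorem exists_nsmul_inv {p : ℕ} (hp : p.Prime) {T : G} (hT : p • T = 0) {n : ℕ}
    (hn : ¬ p ∣ n) : ∃ n' : ℕ, n' • (n • T) = T := by
  have hc : Nat.Coprime n p := ((Nat.Prime.coprime_iff_not_dvd hp).mpr hn).symm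
  obtain ⟨m, -, hm⟩ := Nat.exists_mul_mod_eq_one_of_coprime hc hp.one_lt
  refine ⟨m, ?_⟩
  rw [← mul_nsmul', mul_comm m n, ← Nat.mod_add_div (n * m) p, hm, add_nsmul, one_nsmul,
    mul_nsmul, hT, nsmul_zero, add_zero]

theorem nsmul_ne_zero_of_not_dvd {p : ℕ} (hp : p.Prime) {T : G} (hT : p • T = 0) (hT0 : T ≠ 0)
    {n : ℕ} (hn : ¬ p ∣ n) : n • T ≠ 0 := by
  intro h
  obtain ⟨m, hm⟩ := exists_nsmul_inv hp hT hn
  rw [h, nsmul_zero] at hm
  exact hT0 hm.symm

theorem not_dvd_of_lt {p k : ℕ} (h0 : 0 < k) (hk : k < p) : ¬ p ∣ k :=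
  Nat.not_dvd_of_pos_of_lt h0 hk

end Torsion

theorem mul_lt_one_of_le_of_lt' {Γ₀ : Type*} [LinearOrderedCommGroupWithZero Γ₀] {a b : Γ₀}
    (ha : a ≤ 1) (hb : b < 1) : a * b < 1 :=
  calc a * b ≤ 1 * b := by gcongr
    _ = b := one_mul b
    _ < 1 := hb

/-- the recursion in the residue field. -/
theorem rec_field {κ : Type*} [Field κ] (p : ℕ) (u : ℕ → κ) (h1 : u 1 = 1) (h2 : 4 * u 2 = 1)
    (hrec : ∀ k, 2 ≤ k → k + 1 < p → u (k + 1) * u (k - 1) * (u k - 1) ^ 2 = u k ^ 2) :
    ∀ k, 1 ≤ k → k < p → (k : κ) ^ 2 * u k = 1 := by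
  have key : ∀ k, 1 ≤ k → (k < p → (k : κ) ^ 2 * u k = 1) ∧
      (k + 1 < p → ((k + 1 : ℕ) : κ) ^ 2 * u (k + 1) = 1) := by
    intro k hk
    induction k, hk using Nat.le_induction with
    | base =>
      refine ⟨fun _ => by simp [h1], fun _ => ?_⟩
      norm_num
      linear_combination h2
    | succ k hk ih =>
      refine ⟨ih.2, fun hlt => ?_⟩
      have e1 := ih.1 (by omega)
      have e2 := ih.2 (by omega)
      have e3 := hrec (k + 1) (by omega) hlt
      rw [Nat.add_sub_cancel] at e3
      have hk0 : (k : κ) ^ 2 ≠ 0 := by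
        intro h
        rw [h, zero_mul] at e1
        exact zero_ne_one e1
      apply mul_left_cancel₀ hk0
      push_cast at e2 ⊢
      set a := u k
      set b := u (k + 1)
      set c := u (k + 1 + 1)
      set n : κ := (k : κ)
      -- `n² a = 1`, `(n+1)² b = 1`, `c a (b - 1)² = b²`
      have e4 : c * (n ^ 2 * a) * ((n + 1) ^ 2 * b - (n + 1) ^ 2) ^ 2 =
          n ^ 2 * ((n + 1) ^ 2 * b) ^ 2 := by
        linear_combination (n ^ 2 * (n + 1) ^ 4) * e3
      rw [e1, e2] at e4
      linear_combination e4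
  intro k hk hkp
  exact (key k hk).1 hkp

variable {F : Type*} [Field F] [DecidableEq F] {W : WeierstrassCurve.Affine F}
  (A : ValuationSubring F)

/-- coercion of integral elements (junk value `0`). -/
noncomputable def toA (x : F) : A := by
  classical
  exact if h : x ∈ A then ⟨x, h⟩ else 0

theorem coe_toA {x : F} (h : A.valuation x ≤ 1) : ((toA A x : A) : F) = x := by
  have h' : x ∈ A := (A.valuation_le_one_iff x).mp h
  simp [toA, h']

/-- reduction of integral elements. -/
noncomputable def red (x : F) : IsLocalRing.ResidueField A := IsLocalRing.residue A (toA A x)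

theorem red_eq_zero {x : F} (h : A.valuation x < 1) : red A x = 0 := by
  rw [red, IsLocalRing.residue_eq_zero_iff, A.valuation_lt_one_iff, coe_toA A h.le]
  exact h

theorem red_ne_zero {x : F} (h : A.valuation x = 1) : red A x ≠ 0 := by
  rw [red, Ne, IsLocalRing.residue_eq_zero_iff, A.valuation_lt_one_iff, coe_toA A h.le, h]
  exact lt_irrefl _

theorem red_add {x y : F} (hx : A.valuation x ≤ 1) (hy : A.valuation y ≤ 1) :
    red A (x + y) = red A x + red A y := by
  rw [red, red, red, ← map_add]
  congr 1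
  apply Subtype.ext
  push_cast
  rw [coe_toA A hx, coe_toA A hy, coe_toA A (Valuation.map_add_le _ hx hy)]

theorem red_sub {x y : F} (hx : A.valuation x ≤ 1) (hy : A.valuation y ≤ 1) :
    red A (x - y) = red A x - red A y := by
  rw [red, red, red, ← map_sub]
  congr 1
  apply Subtype.ext
  push_cast
  rw [coe_toA A hx, coe_toA A hy, coe_toA A (Valuation.map_sub_le _ hx hy)]

theorem red_mul {x y : F} (hx : A.valuation x ≤ 1) (hy : A.valuation y ≤ 1) :
    red A (x * y) = red A x * red A y := by
  rw [red, red, red, ← map_mul]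
  congr 1
  apply Subtype.ext
  push_cast
  rw [coe_toA A hx, coe_toA A hy, coe_toA A (by rw [map_mul]; exact mul_le_one' hx hy)]

theorem red_pow {x : F} (hx : A.valuation x ≤ 1) (n : ℕ) : red A (x ^ n) = red A x ^ n := by
  rw [red, red, ← map_pow]
  congr 1
  apply Subtype.ext
  push_cast
  rw [coe_toA A hx, coe_toA A (by rw [map_pow]; exact pow_le_one' hx n)]

theorem red_natCast (n : ℕ) : red A (n : F) = n := by
  rw [red, ← map_natCast (IsLocalRing.residue A)]
  congr 1
  apply Subtype.ext
  have : ((n : A) : F) = (n : F) := by push_cast; rfl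
  rw [this, coe_toA]
  rw [A.valuation_le_one_iff]
  exact natCast_mem A n

theorem red_one : red A (1 : F) = 1 := by
  have := red_natCast A 1
  simpa using this

theorem residue_toA (x : F) : IsLocalRing.residue A (toA A x) = red A x := rfl

/-- (L2) a nonzero `p`-torsion point has integral `x`-coordinate. -/
theorem no_torsion (H : Hyp A.valuation W) {p : ℕ} (hp : p.Prime) (hp3 : 3 ≤ p)
    (hpA : A.valuation (p : F) = 1) {R : W.Point} (hR : R ≠ 0) (hpR : p • R = 0) :
    A.valuation (xc R) ≤ 1 := by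
  by_contra hcon
  push Not at hcon
  have hsq : ∀ γ : A.ValueGroup, 1 < γ → A.valuation W.a₄ < γ * γ := fun γ hγ =>
    lt_of_le_of_lt H.ha₄ (by
      calc (1 : A.ValueGroup) = 1 * 1 := (one_mul 1).symm
        _ < γ * γ := mul_lt_mul'' hγ hγ zero_le zero_le)
  have hne : ∀ k, 0 < k → k < p → k • R ≠ 0 := fun k h0 hk =>
    nsmul_ne_zero_of_not_dvd hp hpR hR (not_dvd_of_lt h0 hk)
  have hge : ∀ k, 0 < k → k < p → A.valuation (xc R) ≤ A.valuation (xc (k • R)) := by
    intro k h0 hk
    have : k • R ∈ Ege H _ hcon.le (hsq _ hcon) := AddSubgroup.nsmul_mem _ (Or.inr le_rfl) k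
    exact this.resolve_left (hne k h0 hk)
  have hle : ∀ k, 0 < k → k < p → A.valuation (xc (k • R)) ≤ A.valuation (xc R) := by
    intro k h0 hk
    obtain ⟨m, hm⟩ := exists_nsmul_inv hp hpR (not_dvd_of_lt h0 hk)
    have h1 : 1 < A.valuation (xc (k • R)) := hcon.trans_le (hge k h0 hk)
    have : m • (k • R) ∈ Ege H _ h1.le (hsq _ h1) := AddSubgroup.nsmul_mem _ (Or.inr le_rfl) m
    rw [hm] at this
    exact this.resolve_left hR
  have hv : ∀ k, 0 < k → k < p → A.valuation (xc (k • R)) = A.valuation (xc R) :=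
    fun k h0 hk => le_antisymm (hle k h0 hk) (hge k h0 hk)
  have hx0 : xc R ≠ 0 := by
    intro h
    rw [h, _root_.map_zero] at hcon
    exact absurd hcon (not_lt.mpr zero_le)
  have hvx0 : A.valuation (xc R) ≠ 0 := (Valuation.ne_zero_iff _).mpr hx0
  set x := xc R with hxdef
  set u : ℕ → F := fun k => xc (k • R) / x with hudef
  have hu : ∀ k, 0 < k → k < p → A.valuation (u k) = 1 := by
    intro k h0 hk
    rw [hudef]
    simp only
    rw [map_div₀, hv k h0 hk, div_self hvx0]
  have hinv : A.valuation (1 / x) < 1 := by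
    rw [map_div₀, map_one]
    exact (div_lt_one₀ (zero_lt_iff.mpr hvx0)).mpr hcon
  have hδ : A.valuation (W.a₂ / x) < 1 := by
    have : W.a₂ / x = W.a₂ * (1 / x) := by ring
    rw [this, map_mul]
    exact mul_lt_one_of_le_of_lt' H.ha₂ hinv
  have hε : A.valuation (W.a₄ / x ^ 2) < 1 := by
    have : W.a₄ / x ^ 2 = W.a₄ * (1 / x) * (1 / x) := by field_simp
    rw [this, map_mul, map_mul]
    exact mul_lt_one_of_le_of_lt' (mul_le_one' H.ha₄ hinv.le) hinv
  have hy : yc R ≠ 0 := by
    intro hy
    have := add_self_eq_zero_of_yc_eq_zero H.toIsE hy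
    rw [← two_nsmul] at this
    exact hne 2 (by norm_num) (by omega) this
  have r2 : 4 * u 2 * (1 + W.a₂ / x + W.a₄ / x ^ 2) = (1 - W.a₄ / x ^ 2) ^ 2 := by
    have i2 := xc_add_self H.toIsE H.two_ne_zero hy
    rw [curve_eq H.toIsE R, ← two_nsmul] at i2
    rw [hudef]
    simp only
    field_simp
    linear_combination i2
  have rk : ∀ k, 2 ≤ k → k + 1 < p →
      u (k + 1) * u (k - 1) * (u k - 1) ^ 2 = (u k - W.a₄ / x ^ 2) ^ 2 := by
    intro k h2 hk
    have e1 : k • R + R = (k + 1) • R := (succ_nsmul R k).symm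
    have e2 : k • R - R = (k - 1) • R := by
      rw [sub_eq_iff_eq_add, ← succ_nsmul, Nat.sub_add_cancel (by omega)]
    have hxne : xc (k • R) ≠ xc R := by
      apply xc_ne_of_ne (hne k (by omega) (by omega)) hR
      · rw [e2]; exact hne _ (by omega) (by omega)
      · rw [e1]; exact hne _ (by omega) hk
    have i1 := xc_add_mul_xc_sub H.toIsE (hne k (by omega) (by omega)) hR hxne
    rw [e1, e2] at i1
    rw [hudef]
    simp only
    field_simp
    linear_combination i1
  have hu1 : u 1 = 1 := by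
    rw [hudef]
    simp only
    rw [one_nsmul, div_self hx0]
  have hulast : u (p - 1) = 1 := by
    rw [hudef]
    simp only
    have : (p - 1) • R = -R := by
      rw [eq_neg_iff_add_eq_zero, ← succ_nsmul, Nat.sub_add_cancel (by omega), hpR]
    rw [this, xc_neg, div_self hx0]
  have key := rec_field p (fun k => red A (u k)) (by simp only [hu1, red_one]) (by
      have r2A : 4 * toA A (u 2) * (1 + toA A (W.a₂ / x) + toA A (W.a₄ / x ^ 2)) =
          (1 - toA A (W.a₄ / x ^ 2)) ^ 2 := by
        apply Subtype.ext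
        push_cast
        rw [coe_toA A (hu 2 (by norm_num) (by omega)).le, coe_toA A hδ.le, coe_toA A hε.le]
        exact r2
      have := congrArg (IsLocalRing.residue A) r2A
      simp only [map_mul, map_add, map_sub, map_pow, map_one, map_ofNat, residue_toA,
        red_eq_zero A hδ, red_eq_zero A hε] at this
      simpa using this) (by
      intro k h2 hk
      have rkA : toA A (u (k + 1)) * toA A (u (k - 1)) * (toA A (u k) - 1) ^ 2 =
          (toA A (u k) - toA A (W.a₄ / x ^ 2)) ^ 2 := by
        apply Subtype.ext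
        push_cast
        rw [coe_toA A (hu (k + 1) (by omega) hk).le, coe_toA A (hu (k - 1) (by omega) (by omega)).le,
          coe_toA A (hu k (by omega) (by omega)).le, coe_toA A hε.le]
        exact rk k h2 hk
      have := congrArg (IsLocalRing.residue A) rkA
      simp only [map_mul, map_sub, map_pow, map_one, residue_toA, red_eq_zero A hε] at this
      simpa using this)
  have hpκ : (p : IsLocalRing.ResidueField A) ≠ 0 := by
    rw [← red_natCast A p]
    exact red_ne_zero A hpA
  have k1 := key (p - 1) (by omega) (by omega)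
  have k2 := key (p - 2) (by omega) (by omega)
  simp only [hulast, red_one, mul_one] at k1
  rw [Nat.cast_sub (by omega)] at k1 k2
  push_cast at k1 k2
  have h3 : (p : IsLocalRing.ResidueField A) * ((p : IsLocalRing.ResidueField A) - 2) = 0 := by
    linear_combination k1
  have h4 := (mul_eq_zero.mp h3).resolve_left hpκ
  rw [h4] at k2
  simp at k2

end Fermat.Agent.S05Lib
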