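import Fermat.Agent.S05.L2
set_option autoImplicit false
set_option linter.unusedSectionVars false

/-!
# S05: (L3) inertia fixes integral `p`-torsion points; the good reduction case
-/

namespace Fermat.Agent.S05Lib

open WeierstrassCurve WeierstrassCurve.Affine WeierstrassCurve.Affine.Point

variable {F : Type*} [Field F] [DecidableEq F] {W : WeierstrassCurve.Affine F}
  (A : ValuationSubring F)

/-- an "inertia element" acting on the field and on the points. -/
structure GalData (W : WeierstrassCurve.Affine F) (σ : F →+* F) (s : W.Point →+ W.Point) :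
    Prop where
  v_eq : ∀ x, A.valuation (σ x) = A.valuation x
  v_sub : ∀ x, A.valuation x ≤ 1 → A.valuation (σ x - x) < 1
  xc_s : ∀ P, xc (s P) = σ (xc P)
  yc_s : ∀ P, yc (s P) = σ (yc P)
  s_ne : ∀ P, P ≠ 0 → s P ≠ 0

variable {A}

theorem v_yc_le_one (H : Hyp A.valuation W) {T : W.Point} (hx : A.valuation (xc T) ≤ 1) :
    A.valuation (yc T) ≤ 1 := by
  by_contra hcon
  push Not at hcon
  have h1 : 1 < A.valuation (yc T) ^ 2 := one_lt_pow₀ hcon two_ne_zero
  rw [← map_pow, curve_eq H.toIsE] at h1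
  have h2 : A.valuation (xc T ^ 3 + W.a₂ * xc T ^ 2 + W.a₄ * xc T) ≤ 1 := by
    refine Valuation.map_add_le _ (Valuation.map_add_le _ ?_ ?_) ?_
    · rw [map_pow]; exact pow_le_one' hx 3
    · rw [map_mul, map_pow]; exact mul_le_one' H.ha₂ (pow_le_one' hx 2)
    · rw [map_mul]; exact mul_le_one' H.ha₄ hx
  exact absurd h1 (not_lt.mpr h2)

theorem fixed_of_integral (H : Hyp A.valuation W) {p : ℕ} (hp : p.Prime) (hp3 : 3 ≤ p)
    (hpA : A.valuation (p : F) = 1) {σ : F →+* F} {s : W.Point →+ W.Point}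
    (G : GalData A W σ s) {T : W.Point} (hpT : p • T = 0) (hx : A.valuation (xc T) ≤ 1)
    (hns : A.valuation (yc T) < 1 → A.valuation (xc T ^ 2 - W.a₄) = 1) : s T = T := by
  by_cases hT0 : T = 0
  · rw [hT0, _root_.map_zero]
  by_contra hne
  have hR0 : s T - T ≠ 0 := sub_ne_zero.mpr hne
  have hpR : p • (s T - T) = 0 := by rw [nsmul_sub, ← map_nsmul, hpT, _root_.map_zero, sub_zero]
  have hRv := no_torsion A H hp hp3 hpA hR0 hpR
  have hsx : xc (s T) = σ (xc T) := G.xc_s T
  have hsy : yc (s T) = σ (yc T) := G.yc_s T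
  have hy1 : A.valuation (yc T) ≤ 1 := v_yc_le_one H hx
  have hdx : A.valuation (σ (xc T) - xc T) < 1 := G.v_sub _ hx
  have hdy : A.valuation (σ (yc T) - yc T) < 1 := G.v_sub _ hy1
  have hsT0 : s T ≠ 0 := G.s_ne T hT0
  have hcurve := curve_eq H.toIsE T
  set x := xc T with hxdef
  set y := yc T with hydef
  by_cases hxx : σ x = x
  · rcases eq_or_eq_neg_of_xc_eq hsT0 hT0 (by rw [hsx, hxx]) with h | h
    · exact hne h
    · have h1 : σ y = -y := by rw [← hsy, h, yc_neg H.toIsE]
      have h2 : A.valuation y < 1 := by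
        have : σ y - y = -(2 * y) := by rw [h1]; ring
        rw [this, Valuation.map_neg, map_mul, H.h2, one_mul] at hdy
        exact hdy
      by_cases hy0 : y = 0
      · have h3 := add_self_eq_zero_of_yc_eq_zero H.toIsE hy0
        have h4 : ¬ p ∣ 2 := fun h => by
          have := Nat.le_of_dvd (by norm_num) h
          omega
        exact nsmul_ne_zero_of_not_dvd hp hpT hT0 h4 (by rw [two_nsmul]; exact h3)
      · have h3 : T + T ≠ 0 := add_self_ne_zero H.toIsE H.two_ne_zero hy0
        have h4 : p • (T + T) = 0 := by rw [nsmul_add, hpT, add_zero]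
        have h5 := no_torsion A H hp hp3 hpA h3 h4
        have i2 := congrArg A.valuation (xc_add_self H.toIsE H.two_ne_zero hy0)
        rw [map_mul, map_mul, H.v_four, one_mul, map_pow, map_pow, hns h2, one_pow] at i2
        have h6 : A.valuation (xc (T + T)) * A.valuation y ^ 2 < 1 :=
          mul_lt_one_of_le_of_lt' h5 (pow_lt_one₀ zero_le h2 two_ne_zero)
        exact absurd i2 h6.ne
  · have hxne : xc (s T) ≠ xc T := by rw [hsx]; exact hxx
    have i1 := xc_sub H.toIsE hsT0 hT0 hxne
    rw [hsx, hsy] at i1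
    have hD0 : 0 < A.valuation ((σ x - x) ^ 2) :=
      zero_lt_iff.mpr ((Valuation.ne_zero_iff _).mpr (pow_ne_zero 2 (sub_ne_zero.mpr hxx)))
    have hD1 : A.valuation ((σ x - x) ^ 2) < 1 := by
      rw [map_pow]; exact pow_lt_one₀ zero_le hdx two_ne_zero
    have hsx1 : A.valuation (σ x) ≤ 1 := by rw [G.v_eq]; exact hx
    have hsy1 : A.valuation (σ y) ≤ 1 := by rw [G.v_eq]; exact hy1
    set Np := (σ x * x + W.a₄) * (σ x + x) + 2 * W.a₂ * (σ x * x) + 2 * (σ y * y) with hNp
    have hNpD : A.valuation Np ≤ A.valuation ((σ x - x) ^ 2) := by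
      rw [← i1, map_mul]
      calc A.valuation (xc (s T - T)) * A.valuation ((σ x - x) ^ 2)
          ≤ 1 * A.valuation ((σ x - x) ^ 2) := by gcongr
        _ = _ := one_mul _
    rcases lt_or_eq_of_le hy1 with hylt | hyeq
    · -- `y` in the maximal ideal
      have hB : A.valuation (σ x * x - W.a₄) = 1 := by
        have e : σ x * x - W.a₄ = (x ^ 2 - W.a₄) + x * (σ x - x) := by ring
        rw [e, ← hns hylt]
        apply Valuation.map_add_eq_of_lt_left
        rw [hns hylt, map_mul]
        exact mul_lt_one_of_le_of_lt' hx hdx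
      have hcs : (σ y) ^ 2 = (σ x) ^ 3 + W.a₂ * (σ x) ^ 2 + W.a₄ * σ x := by
        have := curve_eq H.toIsE (s T)
        rwa [hsx, hsy] at this
      have i3 := congrArg A.valuation (N_mul_N hcs hcurve)
      rw [← hNp, map_mul, map_mul, map_pow (A.valuation) (σ x * x - W.a₄), hB, one_pow,
        one_mul] at i3
      have hNm : A.valuation ((σ x * x + W.a₄) * (σ x + x) + 2 * W.a₂ * (σ x * x)
          - 2 * (σ y * y)) < 1 := by
        have e : (σ x * x + W.a₄) * (σ x + x) + 2 * W.a₂ * (σ x * x) - 2 * (σ y * y) =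
            Np - 4 * (σ y * y) := by rw [hNp]; ring
        rw [e]
        refine Valuation.map_sub_lt _ (hNpD.trans_lt hD1) ?_
        rw [map_mul, H.v_four, one_mul, map_mul]
        exact mul_lt_one_of_le_of_lt' hsy1 hylt
      have h7 : A.valuation Np * A.valuation ((σ x * x + W.a₄) * (σ x + x) + 2 * W.a₂ * (σ x * x)
          - 2 * (σ y * y)) < A.valuation ((σ x - x) ^ 2) := by
        calc _ ≤ A.valuation ((σ x - x) ^ 2) * A.valuation ((σ x * x + W.a₄) * (σ x + x)
              + 2 * W.a₂ * (σ x * x) - 2 * (σ y * y)) := by gcongr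
          _ < A.valuation ((σ x - x) ^ 2) * 1 := mul_lt_mul_of_pos_left hNm hD0
          _ = _ := mul_one _
      exact absurd i3 h7.ne
    · -- `y` a unit
      have e : Np = 4 * y ^ 2 +
          ((σ x - x) * (x * σ x + 2 * x ^ 2 + W.a₄ + 2 * W.a₂ * x) + 2 * y * (σ y - y)) := by
        rw [hNp]
        linear_combination (-2) * hcurve
      have h4y : A.valuation (4 * y ^ 2) = 1 := by
        rw [map_mul, H.v_four, map_pow, hyeq, one_pow, one_mul]
      have hE : A.valuation ((σ x - x) * (x * σ x + 2 * x ^ 2 + W.a₄ + 2 * W.a₂ * x)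
          + 2 * y * (σ y - y)) < 1 := by
        refine Valuation.map_add_lt _ ?_ ?_
        · rw [map_mul, mul_comm]
          refine mul_lt_one_of_le_of_lt' ?_ hdx
          refine Valuation.map_add_le _ (Valuation.map_add_le _ (Valuation.map_add_le _ ?_ ?_)
            H.ha₄) ?_
          · rw [map_mul]; exact mul_le_one' hx hsx1
          · rw [map_mul, H.h2, one_mul, map_pow]; exact pow_le_one' hx 2
          · rw [map_mul, map_mul, H.h2, one_mul]; exact mul_le_one' H.ha₂ hx
        · rw [map_mul, map_mul, H.h2, one_mul]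
          exact mul_lt_one_of_le_of_lt' hy1 hdy
      have h8 : A.valuation Np = 1 := by
        rw [e, ← h4y]
        apply Valuation.map_add_eq_of_lt_left
        rw [h4y]
        exact hE
      rw [h8] at hNpD
      exact absurd hNpD (not_le.mpr hD1)

/-- the good reduction case. -/
theorem fixed_of_good (H : Hyp A.valuation W) (hβ : A.valuation W.a₄ = 1)
    (hdisc : A.valuation (W.a₂ ^ 2 - 4 * W.a₄) = 1) {p : ℕ} (hp : p.Prime) (hp3 : 3 ≤ p)
    (hpA : A.valuation (p : F) = 1) {σ : F →+* F} {s : W.Point →+ W.Point}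
    (G : GalData A W σ s) {T : W.Point} (hpT : p • T = 0) : s T = T := by
  by_cases hT0 : T = 0
  · rw [hT0, _root_.map_zero]
  have hx := no_torsion A H hp hp3 hpA hT0 hpT
  refine fixed_of_integral H hp hp3 hpA G hpT hx fun hy => ?_
  have hle : A.valuation (xc T ^ 2 - W.a₄) ≤ 1 :=
    Valuation.map_sub_le _ (by rw [map_pow]; exact pow_le_one' hx 2) H.ha₄
  by_contra hcon
  have he : A.valuation (xc T ^ 2 - W.a₄) < 1 := lt_of_le_of_ne hle hcon
  have hcurve := curve_eq H.toIsE T
  set x := xc T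
  set y := yc T
  have h1 : W.a₄ * (2 * x + W.a₂) = y ^ 2 - W.a₂ * (x ^ 2 - W.a₄) - (x ^ 2 - W.a₄) * x := by
    linear_combination (-1) * hcurve
  have h2 : A.valuation (2 * x + W.a₂) < 1 := by
    have : A.valuation (W.a₄ * (2 * x + W.a₂)) < 1 := by
      rw [h1]
      refine Valuation.map_sub_lt _ (Valuation.map_sub_lt _ ?_ ?_) ?_
      · rw [map_pow]; exact pow_lt_one₀ zero_le hy two_ne_zero
      · rw [map_mul]; exact mul_lt_one_of_le_of_lt' H.ha₂ he
      · rw [map_mul, mul_comm]; exact mul_lt_one_of_le_of_lt' hx he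
    rwa [map_mul, hβ, one_mul] at this
  have h3 : W.a₂ ^ 2 - 4 * W.a₄ = 4 * (x ^ 2 - W.a₄) - (2 * x - W.a₂) * (2 * x + W.a₂) := by ring
  have h4 : A.valuation (W.a₂ ^ 2 - 4 * W.a₄) < 1 := by
    rw [h3]
    refine Valuation.map_sub_lt _ ?_ ?_
    · rw [map_mul, H.v_four, one_mul]; exact he
    · rw [map_mul]
      refine mul_lt_one_of_le_of_lt' (Valuation.map_sub_le _ ?_ H.ha₂) h2
      rw [map_mul, H.h2, one_mul]; exact hx
  rw [hdisc] at h4
  exact lt_irrefl _ h4

end Fermat.Agent.S05Lib
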