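import Fermat.Agent.S05.L3
import Fermat.Agent.S05.Core
set_option autoImplicit false
set_option linter.unusedSectionVars false

/-!
# S05: the multiplicative reduction case (L4 - L7)
-/

namespace Fermat.Agent.S05Lib

open WeierstrassCurve WeierstrassCurve.Affine WeierstrassCurve.Affine.Point

variable {F : Type*} [Field F] [DecidableEq F] {W : WeierstrassCurve.Affine F}
  {A : ValuationSubring F}

/-- (L4) -/
theorem two_mem_E0 (H : Hyp A.valuation W) (hβ1 : A.valuation W.a₄ < 1) (hβ0 : W.a₄ ≠ 0)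
    {P : W.Point} (hP : A.valuation (xc P) ≤ A.valuation W.a₄) :
    P + P = 0 ∨ 1 ≤ A.valuation (xc (P + P)) := by
  by_cases hy : yc P = 0
  · exact Or.inl (add_self_eq_zero_of_yc_eq_zero H.toIsE hy)
  right
  have hb0 : 0 < A.valuation W.a₄ := zero_lt_iff.mpr ((Valuation.ne_zero_iff _).mpr hβ0)
  have i2 := congrArg A.valuation (xc_add_self H.toIsE H.two_ne_zero hy)
  have hx2 : A.valuation (xc P ^ 2) < A.valuation W.a₄ := by
    rw [map_pow, pow_two]
    calc A.valuation (xc P) * A.valuation (xc P) ≤ A.valuation W.a₄ * A.valuation W.a₄ := by gcongr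
      _ < A.valuation W.a₄ * 1 := mul_lt_mul_of_pos_left hβ1 hb0
      _ = _ := mul_one _
  have hB : A.valuation (xc P ^ 2 - W.a₄) = A.valuation W.a₄ :=
    Valuation.map_sub_eq_of_lt_right _ hx2
  rw [map_mul, map_mul, H.v_four, one_mul, map_pow _ (xc P ^ 2 - W.a₄), hB] at i2
  have hy2 : A.valuation (yc P ^ 2) ≤ A.valuation W.a₄ ^ 2 := by
    have e : yc P ^ 2 = xc P * (xc P ^ 2 + W.a₂ * xc P + W.a₄) := by
      rw [curve_eq H.toIsE]; ring
    rw [e, map_mul, pow_two (A.valuation W.a₄)]
    refine mul_le_mul' hP ?_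
    refine Valuation.map_add_le _ (Valuation.map_add_le _ hx2.le ?_) le_rfl
    rw [map_mul]
    calc A.valuation W.a₂ * A.valuation (xc P) ≤ 1 * A.valuation W.a₄ := by
          gcongr
          exact H.ha₂
      _ = _ := one_mul _
  apply le_of_mul_le_mul_right _ (pow_pos hb0 2)
  calc 1 * A.valuation W.a₄ ^ 2 = A.valuation (xc (P + P)) * A.valuation (yc P ^ 2) := by
        rw [one_mul, i2]
    _ ≤ A.valuation (xc (P + P)) * A.valuation W.a₄ ^ 2 := by gcongr

theorem v_yc_eq (H : Hyp A.valuation W) (hα : A.valuation W.a₂ = 1) {P : W.Point}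
    (h1 : A.valuation W.a₄ < A.valuation (xc P)) (h2 : A.valuation (xc P) < 1) :
    A.valuation (yc P) = A.valuation (xc P) := by
  have hx0 : 0 < A.valuation (xc P) := lt_of_le_of_lt zero_le h1
  apply (pow_left_inj₀ zero_le zero_le two_ne_zero).mp
  rw [← map_pow, curve_eq H.toIsE]
  have e : xc P ^ 3 + W.a₂ * xc P ^ 2 + W.a₄ * xc P = W.a₂ * xc P ^ 2 + (xc P ^ 3 + W.a₄ * xc P) := by
    ring
  have e2 : A.valuation (W.a₂ * xc P ^ 2) = A.valuation (xc P) ^ 2 := by
    rw [map_mul, hα, one_mul, map_pow]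
  rw [e, ← e2]
  apply Valuation.map_add_eq_of_lt_left
  rw [e2]
  refine Valuation.map_add_lt _ ?_ ?_
  · rw [map_pow]
    exact pow_lt_pow_right_of_lt_one₀ hx0 h2 (by norm_num)
  · rw [map_mul, pow_two]
    exact mul_lt_mul_of_pos_right h1 hx0

/-- (L5), (L6) -/
theorem v_xc_pow_eq (H : Hyp A.valuation W) (hα : A.valuation W.a₂ = 1) (hβ0 : W.a₄ ≠ 0)
    {p : ℕ} (hp : p.Prime) (hp5 : 5 ≤ p) {S : W.Point} (hpS : p • S = 0)
    (hlow : ∀ j, 0 < j → j < p → A.valuation W.a₄ < A.valuation (xc (j • S)))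
    (hup : ∀ j, 0 < j → j < p → A.valuation (xc (j • S)) < 1)
    (hmax : ∀ j, 0 < j → j < p → A.valuation (xc (j • S)) ≤ A.valuation (xc S)) :
    A.valuation (xc S) ^ p = A.valuation W.a₄ ^ 2 := by
  have hodd : p % 2 = 1 := by
    rcases hp.eq_two_or_odd with h | h
    · omega
    · exact h
  obtain ⟨k, hk⟩ : ∃ k, p = 2 * k + 1 := ⟨p / 2, by omega⟩
  have hne : ∀ j, 0 < j → j < p → j • S ≠ 0 := by
    intro j h0 hj h
    have := hlow j h0 hj
    rw [h, xc_zero, _root_.map_zero] at this
    exact absurd this (not_lt.mpr zero_le)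
  have h1S : (1 : ℕ) • S = S := one_nsmul S
  have := core A.valuation (fun j => xc (j • S)) W.a₄ p k hk (by omega) hβ0 hlow
    (by simpa only [h1S] using hmax) (by simpa only [h1S] using hup 1 one_pos (by omega))
    (by
      simp only [h1S]
      have hy : yc S ≠ 0 := by
        intro hy
        have := add_self_eq_zero_of_yc_eq_zero H.toIsE hy
        rw [← two_nsmul] at this
        exact hne 2 (by norm_num) (by omega) this
      have i2 := congrArg A.valuation (xc_add_self H.toIsE H.two_ne_zero hy)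
      have hl := hlow 1 one_pos (by omega)
      have hu := hup 1 one_pos (by omega)
      rw [h1S] at hl hu
      rw [map_mul, map_mul, H.v_four, one_mul, map_pow, map_pow, v_yc_eq H hα hl hu,
        ← two_nsmul] at i2
      exact i2)
    (by
      intro i j hj hji hij
      have e1 : i • S + j • S = (i + j) • S := (add_nsmul S i j).symm
      have e2 : i • S - j • S = (i - j) • S := by
        rw [sub_eq_iff_eq_add, ← add_nsmul, Nat.sub_add_cancel hji.le]
      have hxne : xc (i • S) ≠ xc (j • S) := by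
        apply xc_ne_of_ne (hne i (by omega) (by omega)) (hne j hj (by omega))
        · rw [e2]; exact hne _ (by omega) (by omega)
        · rw [e1]; exact hne _ (by omega) hij
      have i1 := congrArg A.valuation
        (xc_add_mul_xc_sub H.toIsE (hne i (by omega) (by omega)) (hne j hj (by omega)) hxne)
      rw [e1, e2, map_mul, map_mul, map_pow, map_pow] at i1
      exact i1)
    (by
      have : (k + 1) • S = -(k • S) := by
        rw [eq_neg_iff_add_eq_zero, ← add_nsmul]
        have : k + 1 + k = p := by omega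
        rw [this, hpS]
      rw [this, xc_neg])
  simpa only [h1S] using this

/-- (L7) -/
theorem fixed_of_v_eq (H : Hyp A.valuation W) (hα : A.valuation W.a₂ = 1)
    {p : ℕ} (hp : p.Prime) (hp3 : 3 ≤ p) (hpA : A.valuation (p : F) = 1)
    {σ : F →+* F} {s : W.Point →+ W.Point} (G : GalData A W σ s) {S : W.Point} (hpS : p • S = 0)
    (hlow : A.valuation W.a₄ < A.valuation (xc S)) (hup : A.valuation (xc S) < 1)
    {t : F} (ht : σ t = t) (hvt : A.valuation (xc S) = A.valuation t) : s S = S := by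
  have hS0 : S ≠ 0 := by
    rintro rfl
    rw [xc_zero, _root_.map_zero] at hlow
    exact absurd hlow (not_lt.mpr zero_le)
  by_contra hne
  have hR0 : s S - S ≠ 0 := sub_ne_zero.mpr hne
  have hpR : p • (s S - S) = 0 := by rw [nsmul_sub, ← map_nsmul, hpS, _root_.map_zero, sub_zero]
  have hRv := no_torsion A H hp hp3 hpA hR0 hpR
  have hsx : xc (s S) = σ (xc S) := G.xc_s S
  have hsy : yc (s S) = σ (yc S) := G.yc_s S
  have hsS0 : s S ≠ 0 := G.s_ne S hS0
  have hcurve := curve_eq H.toIsE S
  have hvy := v_yc_eq H hα hlow hup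
  set x := xc S with hxdef
  set y := yc S with hydef
  have hvx0 : 0 < A.valuation x := lt_of_le_of_lt zero_le hlow
  have hx0 : x ≠ 0 := (Valuation.ne_zero_iff _).mp hvx0.ne'
  have ht0 : t ≠ 0 := (Valuation.ne_zero_iff _).mp (hvt ▸ hvx0.ne')
  -- `σ x - x` is small
  have hdx : A.valuation (σ x - x) < A.valuation x := by
    have h1 : A.valuation (x / t) ≤ 1 := by rw [map_div₀, hvt, div_self (hvt ▸ hvx0.ne')]
    have h2 := G.v_sub _ h1
    have e : σ x - x = (σ (x / t) - x / t) * t := by
      rw [map_div₀, ht]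
      field_simp
    rw [e, map_mul, hvt]
    calc A.valuation (σ (x / t) - x / t) * A.valuation t < 1 * A.valuation t :=
          mul_lt_mul_of_pos_right h2 (hvt ▸ hvx0)
      _ = _ := one_mul _
  -- `g = y / x` is a unit
  set g := y / x with hgdef
  have hvg : A.valuation g = 1 := by rw [hgdef, map_div₀, hvy, div_self hvx0.ne']
  have hdg : A.valuation (σ g - g) < 1 := G.v_sub _ hvg.le
  have hyg : y = g * x := by rw [hgdef]; field_simp
  have hsyg : σ y = σ g * σ x := by rw [hyg, map_mul]
  have hg2 : g ^ 2 = x + W.a₂ + W.a₄ / x := by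
    rw [hgdef, div_pow, hcurve]
    field_simp
  by_cases hxx : σ x = x
  · rcases eq_or_eq_neg_of_xc_eq hsS0 hS0 (by rw [hsx, hxx]) with h | h
    · exact hne h
    · have h1 : σ y = -y := by rw [← hsy, h, yc_neg H.toIsE]
      have h2 : σ g = -g := by
        rw [hsyg, hxx, hyg] at h1
        have : (σ g + g) * x = 0 := by linear_combination h1
        have := (mul_eq_zero.mp this).resolve_right hx0
        linear_combination this
      have h3 : σ g - g = -(2 * g) := by rw [h2]; ring
      rw [h3, Valuation.map_neg, map_mul, H.h2, hvg, one_mul] at hdg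
      exact lt_irrefl _ hdg
  · have hxne : xc (s S) ≠ xc S := by rw [hsx]; exact hxx
    have i1 := congrArg A.valuation (xc_sub H.toIsE hsS0 hS0 hxne)
    rw [hsx, hsy] at i1
    have hvsx : A.valuation (σ x) = A.valuation x := G.v_eq x
    have hβx : A.valuation (W.a₄ / x) < 1 := by
      rw [map_div₀]
      exact (div_lt_one₀ hvx0).mpr hlow
    have hU : A.valuation (σ x + x + 2 * W.a₂ + 2 * (σ g * g)) = 1 := by
      have e : σ x + x + 2 * W.a₂ + 2 * (σ g * g) =
          4 * g ^ 2 + (σ x - x - 2 * (W.a₄ / x) + 2 * g * (σ g - g)) := by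
        linear_combination (-2) * hg2
      have h4 : A.valuation (4 * g ^ 2) = 1 := by
        rw [map_mul, H.v_four, map_pow, hvg, one_pow, one_mul]
      rw [e, ← h4]
      apply Valuation.map_add_eq_of_lt_left
      rw [h4]
      refine Valuation.map_add_lt _ (Valuation.map_sub_lt _ (hdx.trans hup) ?_) ?_
      · rw [map_mul, H.h2, one_mul]; exact hβx
      · rw [map_mul, map_mul, H.h2, hvg, one_mul, one_mul]; exact hdg
    have eN : (σ x * x + W.a₄) * (σ x + x) + 2 * W.a₂ * (σ x * x) + 2 * (σ y * y) =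
        σ x * x * (σ x + x + 2 * W.a₂ + 2 * (σ g * g)) + W.a₄ * (σ x + x) := by
      rw [hsyg, hyg]; ring
    have hN : A.valuation ((σ x * x + W.a₄) * (σ x + x) + 2 * W.a₂ * (σ x * x) + 2 * (σ y * y)) =
        A.valuation x ^ 2 := by
      have h5 : A.valuation (σ x * x * (σ x + x + 2 * W.a₂ + 2 * (σ g * g))) =
          A.valuation x ^ 2 := by
        rw [map_mul, map_mul, hU, hvsx, mul_one, pow_two]
      rw [eN, ← h5]
      apply Valuation.map_add_eq_of_lt_left
      rw [h5, map_mul, pow_two]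
      calc A.valuation W.a₄ * A.valuation (σ x + x) ≤ A.valuation W.a₄ * A.valuation x := by
            gcongr
            exact Valuation.map_add_le _ hvsx.le le_rfl
        _ < A.valuation x * A.valuation x := mul_lt_mul_of_pos_right hlow hvx0
    rw [hN, map_mul, map_pow] at i1
    have h6 : A.valuation (xc (s S - S)) * A.valuation (σ x - x) ^ 2 < A.valuation x ^ 2 := by
      calc _ ≤ 1 * A.valuation (σ x - x) ^ 2 := by gcongr
        _ = A.valuation (σ x - x) ^ 2 := one_mul _
        _ < A.valuation x ^ 2 := pow_lt_pow_left₀ hdx zero_le two_ne_zero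
    exact absurd i1 h6.ne

/-- the multiplicative reduction case. -/
theorem fixed_of_mult (H : Hyp A.valuation W) (hα : A.valuation W.a₂ = 1)
    (hβ1 : A.valuation W.a₄ < 1) (hβ0 : W.a₄ ≠ 0)
    {p : ℕ} (hp : p.Prime) (hp5 : 5 ≤ p) (hpA : A.valuation (p : F) = 1)
    {σ : F →+* F} {s : W.Point →+ W.Point} (G : GalData A W σ s)
    {t : F} (ht : σ t = t) (hvt : A.valuation W.a₄ ^ 2 = A.valuation t ^ p)
    {T : W.Point} (hpT : p • T = 0) : s T = T := by
  have hp3 : 3 ≤ p := by omega
  have hE0 : A.valuation W.a₄ < 1 * 1 := by rwa [one_mul]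
  by_cases hT : T ∈ Ege H 1 le_rfl hE0
  · rcases hT with hT | hT
    · rw [hT, _root_.map_zero]
    · have hT0 : T ≠ 0 := by
        rintro rfl
        rw [xc_zero, _root_.map_zero] at hT
        exact absurd hT (not_le.mpr one_pos)
      have hx := no_torsion A H hp hp3 hpA hT0 hpT
      refine fixed_of_integral H hp hp3 hpA G hpT hx fun _ => ?_
      have hx1 : A.valuation (xc T ^ 2) = 1 := by rw [map_pow, le_antisymm hx hT, one_pow]
      rw [← hx1]
      exact Valuation.map_sub_eq_of_lt_left _ (by rw [hx1]; exact hβ1)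
  · have hnot : ∀ n, ¬ p ∣ n → n • T ∉ Ege H 1 le_rfl hE0 := by
      intro n hn hmem
      obtain ⟨m, hm⟩ := exists_nsmul_inv hp hpT hn
      exact hT (hm ▸ AddSubgroup.nsmul_mem _ hmem m)
    have hup : ∀ n, ¬ p ∣ n → A.valuation (xc (n • T)) < 1 := by
      intro n hn
      by_contra hcon
      exact hnot n hn (Or.inr (not_lt.mp hcon))
    have hlow : ∀ n, ¬ p ∣ n → A.valuation W.a₄ < A.valuation (xc (n • T)) := by
      intro n hn
      by_contra hcon
      have h2n : ¬ p ∣ 2 * n := by
        intro h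
        rcases (Nat.Prime.dvd_mul hp).mp h with h | h
        · have := Nat.le_of_dvd (by norm_num) h
          omega
        · exact hn h
      apply hnot (2 * n) h2n
      rw [mul_nsmul', two_nsmul]
      exact two_mem_E0 H hβ1 hβ0 (not_lt.mp hcon)
    obtain ⟨k₀, hk₀, hk₀max⟩ := Finset.exists_max_image (Finset.Ioo 0 p)
      (fun k => A.valuation (xc (k • T))) ⟨1, by simp; omega⟩
    rw [Finset.mem_Ioo] at hk₀
    have hk₀p : ¬ p ∣ k₀ := not_dvd_of_lt hk₀.1 hk₀.2
    have hjk : ∀ j, 0 < j → j < p → ¬ p ∣ j * k₀ := by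
      intro j h0 hj h
      rcases (Nat.Prime.dvd_mul hp).mp h with h | h
      · exact not_dvd_of_lt h0 hj h
      · exact hk₀p h
    have hpS : p • (k₀ • T) = 0 := by rw [nsmul_left_comm, hpT, nsmul_zero]
    have hpow := v_xc_pow_eq H hα hβ0 hp hp5 hpS
      (fun j h0 hj => by rw [← mul_nsmul']; exact hlow _ (hjk j h0 hj))
      (fun j h0 hj => by rw [← mul_nsmul']; exact hup _ (hjk j h0 hj))
      (fun j h0 hj => by
        rw [← mul_nsmul']
        have e : (j * k₀) • T = ((j * k₀) % p) • T := by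
          conv_lhs => rw [← Nat.mod_add_div (j * k₀) p, add_nsmul, mul_nsmul, hpT, nsmul_zero,
            add_zero]
        rw [e]
        apply hk₀max
        rw [Finset.mem_Ioo]
        refine ⟨Nat.pos_of_ne_zero fun h => hjk j h0 hj (Nat.dvd_of_mod_eq_zero h),
          Nat.mod_lt _ hp.pos⟩)
    rw [hvt] at hpow
    have hv := (pow_left_inj₀ zero_le zero_le hp.ne_zero).mp hpow
    have hfix := fixed_of_v_eq H hα hp hp3 hpA G hpS (hlow _ hk₀p) (hup _ hk₀p) ht hv
    obtain ⟨m, hm⟩ := exists_nsmul_inv hp hpT hk₀p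
    rw [← hm, map_nsmul, hfix]

end Fermat.Agent.S05Lib
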