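import Fermat.Agent.S05.Defs
import Fermat.Agent.S05.Frey
import Fermat.Agent.S05.Inertia
set_option autoImplicit false

namespace Fermat.Agent.S05Lib
open WeierstrassCurve WeierstrassCurve.Affine WeierstrassCurve.Affine.Point

local notation "Qb" => AlgebraicClosure ℚ

/-- [A1] transport of the Frey curve to the model curve. -/
theorem exists_transport (P : FreyPackage) (e α β : ℚ)
    (h : (e = 0 ∧ α = (P.b : ℚ) ^ P.p - (P.a : ℚ) ^ P.p ∧ β = -((P.a : ℚ) ^ P.p * (P.b : ℚ) ^ P.p)) ∨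
      (e = (P.a : ℚ) ^ P.p ∧ α = 2 * (P.a : ℚ) ^ P.p + (P.b : ℚ) ^ P.p ∧
        β = (P.a : ℚ) ^ P.p * ((P.a : ℚ) ^ P.p + (P.b : ℚ) ^ P.p))) :
    ∃ φ : (P.freyCurve⁄Qb).Point →+ ((EC α β)⁄Qb).Point, Function.Injective φ ∧
      ∀ (σ : Qb ≃ₐ[ℚ] Qb) (T : (P.freyCurve⁄Qb).Point), φ (σ • T) = σ • φ T := by
  have hc : IsFreyChange P.freyCurve (EC α β) e := by
    rcases h with ⟨rfl, rfl, rfl⟩ | ⟨rfl, rfl, rfl⟩
    · exact isFreyChange_zero P
    · exact isFreyChange_a P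
  exact ⟨hc.homK Qb, hc.homK_injective, hc.homK_smul⟩

/-- [A2] inertia facts. -/
theorem inertia_facts (A : ValuationSubring Qb) (σ : Qb ≃ₐ[ℚ] Qb)
    (hσ : σ ∈ A.inertiaSubgroupIn ℚ) :
    (∀ x, A.valuation (σ x) = A.valuation x) ∧ (∀ x ∈ A, A.valuation (σ x - x) < 1) := by
  have : Algebra.IsAlgebraic ℚ Qb := AlgebraicClosure.isAlgebraic ℚ
  exact ⟨inertia_valuation_eq hσ, fun _ hx => inertia_valuation_sub_lt_one hσ hx⟩

/-- [A3] valuations of integers. -/
theorem valuation_intCast_le_one (A : ValuationSubring Qb) (n : ℤ) :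
    A.valuation (n : Qb) ≤ 1 := by
  rw [ValuationSubring.valuation_le_one_iff]
  exact intCast_mem A n

theorem valuation_intCast_lt_one (A : ValuationSubring Qb) {q : ℕ}
    (hA : A.LiesOverPrime q) (n : ℤ) (hn : (q : ℤ) ∣ n) : A.valuation (n : Qb) < 1 := by
  obtain ⟨m, rfl⟩ := hn
  have hq : A.valuation (q : Qb) < 1 := (ValuationSubring.mem_nonunits_iff (A := A)).mp hA
  push_cast
  rw [map_mul]
  calc A.valuation (q : Qb) * A.valuation (m : Qb) ≤ A.valuation (q : Qb) * 1 :=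
        mul_le_mul_right (valuation_intCast_le_one A m) _
    _ < 1 := by rwa [mul_one]

theorem valuation_intCast_eq_one (A : ValuationSubring Qb) {q : ℕ} (hq : q.Prime)
    (hA : A.LiesOverPrime q) (n : ℤ) (hn : ¬ (q : ℤ) ∣ n) : A.valuation (n : Qb) = 1 := by
  have hcop : IsCoprime (q : ℤ) n :=
    ((Nat.prime_iff_prime_int.mp hq).coprime_iff_not_dvd).mpr hn
  obtain ⟨u, v, huv⟩ := hcop
  refine le_antisymm (valuation_intCast_le_one A n) ?_
  by_contra hlt
  push Not at hlt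
  have h1 : A.valuation ((u * q : ℤ) : Qb) < 1 :=
    valuation_intCast_lt_one A hA _ (Dvd.intro_left u rfl)
  have h2 : A.valuation ((v * n : ℤ) : Qb) < 1 := by
    push_cast
    rw [map_mul]
    calc A.valuation (v : Qb) * A.valuation (n : Qb) ≤ 1 * A.valuation (n : Qb) :=
          mul_le_mul_left (valuation_intCast_le_one A v) _
      _ < 1 := by rwa [one_mul]
  have h3 : A.valuation (((u * q + v * n : ℤ)) : Qb) < 1 := by
    rw [Int.cast_add]
    exact Valuation.map_add_lt _ h1 h2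
  rw [huv] at h3
  simp at h3

end Fermat.Agent.S05Lib
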