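import Fermat.Agent.S05.Ident
set_option autoImplicit false
set_option linter.unusedSectionVars false

/-!
# S05: (L1) the filtration subgroups `{O} ∪ {γ ≤ v x}`
-/

namespace Fermat.Agent.S05Lib

open WeierstrassCurve WeierstrassCurve.Affine WeierstrassCurve.Affine.Point

variable {F Γ₀ : Type*} [Field F] [LinearOrderedCommGroupWithZero Γ₀]

/-- standing hypotheses: integral model `Y² = X (X² + a₂ X + a₄)`, `2` a unit. -/
structure Hyp (v : Valuation F Γ₀) (W : WeierstrassCurve.Affine F) : Prop extends IsE W where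
  ha₂ : v W.a₂ ≤ 1
  ha₄ : v W.a₄ ≤ 1
  h2 : v (2 : F) = 1

variable {v : Valuation F Γ₀} {W : WeierstrassCurve.Affine F}

theorem Hyp.two_ne_zero (H : Hyp v W) : (2 : F) ≠ 0 := by
  intro h
  have := H.h2
  rw [h, _root_.map_zero] at this
  exact zero_ne_one this

theorem Hyp.v_four (H : Hyp v W) : v (4 : F) = 1 := by
  have : (4 : F) = 2 * 2 := by norm_num
  rw [this, map_mul, H.h2, one_mul]

theorem v_yc_sq_le (H : Hyp v W) (P : W.Point) (hx : 1 ≤ v (xc P)) :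
    v (yc P) ^ 2 ≤ v (xc P) ^ 3 := by
  rw [← map_pow, curve_eq H.toIsE]
  refine Valuation.map_add_le v (Valuation.map_add_le v (by rw [map_pow]) ?_) ?_
  · rw [map_mul, map_pow]
    calc v W.a₂ * v (xc P) ^ 2 ≤ 1 * v (xc P) ^ 2 := by gcongr; exact H.ha₂
      _ = v (xc P) ^ 2 := one_mul _
      _ ≤ v (xc P) ^ 3 := pow_le_pow_right₀ hx (by norm_num)
  · rw [map_mul]
    calc v W.a₄ * v (xc P) ≤ 1 * v (xc P) := by gcongr; exact H.ha₄
      _ = v (xc P) ^ 1 := by rw [one_mul, pow_one]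
      _ ≤ v (xc P) ^ 3 := pow_le_pow_right₀ hx (by norm_num)

theorem v_N_le {α β x₁ x₂ y₁ y₂ : F} (hα : v α ≤ 1) (hβ : v β ≤ 1) (h2 : v (2 : F) = 1)
    (h1 : 1 ≤ v x₂) (h12 : v x₂ ≤ v x₁) (hy₁ : v y₁ ^ 2 ≤ v x₁ ^ 3) (hy₂ : v y₂ ^ 2 ≤ v x₂ ^ 3) :
    v ((x₁ * x₂ + β) * (x₁ + x₂) + 2 * α * (x₁ * x₂) + 2 * (y₁ * y₂)) ≤ v x₁ ^ 2 * v x₂ ∧
    v ((x₁ * x₂ + β) * (x₁ + x₂) + 2 * α * (x₁ * x₂) - 2 * (y₁ * y₂)) ≤ v x₁ ^ 2 * v x₂ := by
  have h1' : 1 ≤ v x₁ := h1.trans h12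
  have e1 : v ((x₁ * x₂ + β) * (x₁ + x₂)) ≤ v x₁ ^ 2 * v x₂ := by
    rw [map_mul]
    have a1 : v (x₁ * x₂ + β) ≤ v x₁ * v x₂ := by
      refine Valuation.map_add_le v (by rw [map_mul]) (hβ.trans ?_)
      calc (1 : Γ₀) = 1 * 1 := (one_mul 1).symm
        _ ≤ v x₁ * v x₂ := by gcongr
    have a2 : v (x₁ + x₂) ≤ v x₁ := Valuation.map_add_le v le_rfl h12
    calc v (x₁ * x₂ + β) * v (x₁ + x₂) ≤ (v x₁ * v x₂) * v x₁ := by gcongr
      _ = v x₁ ^ 2 * v x₂ := by field_simp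
  have e2 : v (2 * α * (x₁ * x₂)) ≤ v x₁ ^ 2 * v x₂ := by
    rw [map_mul, map_mul, map_mul, h2, one_mul]
    calc v α * (v x₁ * v x₂) ≤ v x₁ * (v x₁ * v x₂) := by gcongr; exact hα.trans h1'
      _ = v x₁ ^ 2 * v x₂ := by field_simp
  have e3 : v (2 * (y₁ * y₂)) ≤ v x₁ ^ 2 * v x₂ := by
    rw [map_mul, map_mul, h2, one_mul]
    apply (pow_le_pow_iff_left₀ zero_le zero_le two_ne_zero).mp
    calc (v y₁ * v y₂) ^ 2 = v y₁ ^ 2 * v y₂ ^ 2 := mul_pow _ _ _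
      _ ≤ v x₁ ^ 3 * v x₂ ^ 3 := by gcongr
      _ = v x₁ ^ 3 * v x₂ ^ 2 * v x₂ := by field_simp
      _ ≤ v x₁ ^ 3 * v x₂ ^ 2 * v x₁ := by gcongr
      _ = (v x₁ ^ 2 * v x₂) ^ 2 := by field_simp
  exact ⟨Valuation.map_add_le v (Valuation.map_add_le v e1 e2) e3,
    Valuation.map_sub_le v (Valuation.map_add_le v e1 e2) e3⟩

variable [DecidableEq F]

theorem le_v_xc_of_xc_ne (H : Hyp v W) {P Q : W.Point} (hP : P ≠ 0) (hQ : Q ≠ 0)
    (hne : xc P ≠ xc Q) (h1 : 1 ≤ v (xc Q)) (h12 : v (xc Q) ≤ v (xc P))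
    (hβ : v W.a₄ < v (xc P) * v (xc Q)) :
    v (xc Q) ≤ v (xc (P + Q)) ∧ v (xc Q) ≤ v (xc (P - Q)) := by
  have h1' : 1 ≤ v (xc P) := h1.trans h12
  obtain ⟨n1, n2⟩ := v_N_le (v := v) H.ha₂ H.ha₄ H.h2 h1 h12 (v_yc_sq_le H P h1') (v_yc_sq_le H Q h1)
  have i1 := congrArg v (xc_add H.toIsE hP hQ hne)
  have i2 := congrArg v (xc_sub H.toIsE hP hQ hne)
  rw [← i1] at n2
  rw [← i2] at n1
  have hD : 0 < v ((xc P - xc Q) ^ 2) :=
    zero_lt_iff.mpr ((Valuation.ne_zero_iff v).mpr (pow_ne_zero 2 (sub_ne_zero.mpr hne)))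
  have hB : v (xc P * xc Q - W.a₄) = v (xc P) * v (xc Q) := by
    rw [← map_mul]
    exact Valuation.map_sub_eq_of_lt_left _ (by rw [map_mul]; exact hβ)
  have hx1 : 0 < v (xc P) := lt_of_lt_of_le one_pos h1'
  have hx2 : 0 < v (xc Q) := lt_of_lt_of_le one_pos h1
  have hBB : 0 < v (xc P) ^ 2 * v (xc Q) := mul_pos (pow_pos hx1 2) hx2
  have i3 : v (xc (P - Q)) * v ((xc P - xc Q) ^ 2) * (v (xc (P + Q)) * v ((xc P - xc Q) ^ 2)) =
      (v (xc P) * v (xc Q)) ^ 2 * v ((xc P - xc Q) ^ 2) := by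
    rw [← map_mul, ← map_mul, i1, i2, ← map_mul,
      N_mul_N (curve_eq H.toIsE P) (curve_eq H.toIsE Q), map_mul, map_pow, hB]
  rw [map_mul] at n1 n2
  set D := v ((xc P - xc Q) ^ 2) with hDdef
  set Xp := v (xc (P + Q))
  set Xm := v (xc (P - Q))
  constructor
  · apply le_of_mul_le_mul_right _ (mul_pos hD (mul_pos hD hBB))
    calc v (xc Q) * (D * (D * (v (xc P) ^ 2 * v (xc Q))))
        = ((v (xc P) * v (xc Q)) ^ 2 * D) * D := by field_simp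
      _ = (Xm * D * (Xp * D)) * D := by rw [i3]
      _ ≤ ((v (xc P) ^ 2 * v (xc Q)) * (Xp * D)) * D := by gcongr
      _ = Xp * (D * (D * (v (xc P) ^ 2 * v (xc Q)))) := by field_simp
  · apply le_of_mul_le_mul_right _ (mul_pos hD (mul_pos hD hBB))
    calc v (xc Q) * (D * (D * (v (xc P) ^ 2 * v (xc Q))))
        = ((v (xc P) * v (xc Q)) ^ 2 * D) * D := by field_simp
      _ = (Xm * D * (Xp * D)) * D := by rw [i3]
      _ ≤ (Xm * D * (v (xc P) ^ 2 * v (xc Q))) * D := by gcongr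
      _ = Xm * (D * (D * (v (xc P) ^ 2 * v (xc Q)))) := by field_simp

theorem le_v_xc_add_self (H : Hyp v W) {P : W.Point} (hy : yc P ≠ 0) (h1 : 1 ≤ v (xc P))
    (hβ : v W.a₄ < v (xc P) * v (xc P)) : v (xc P) ≤ v (xc (P + P)) := by
  have i2 := congrArg v (xc_add_self H.toIsE H.two_ne_zero hy)
  have hB : v (xc P ^ 2 - W.a₄) = v (xc P) ^ 2 := by
    rw [← map_pow]
    exact Valuation.map_sub_eq_of_lt_left _ (by rw [map_pow, pow_two]; exact hβ)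
  rw [map_mul, map_mul, H.v_four, one_mul, map_pow, map_pow, hB] at i2
  have hx1 : 0 < v (xc P) := lt_of_lt_of_le one_pos h1
  apply le_of_mul_le_mul_right _ (pow_pos hx1 3)
  calc v (xc P) * v (xc P) ^ 3 = (v (xc P) ^ 2) ^ 2 := by field_simp
    _ = v (xc (P + P)) * v (yc P) ^ 2 := i2.symm
    _ ≤ v (xc (P + P)) * v (xc P) ^ 3 := mul_le_mul' le_rfl (v_yc_sq_le H P h1)

theorem min_le_v_xc_add (H : Hyp v W) {P Q : W.Point} (hP : P ≠ 0) (hQ : Q ≠ 0) (hPQ : P + Q ≠ 0)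
    (h1 : 1 ≤ v (xc P)) (h2 : 1 ≤ v (xc Q)) (hβ : v W.a₄ < v (xc P) * v (xc Q)) :
    min (v (xc P)) (v (xc Q)) ≤ v (xc (P + Q)) := by
  by_cases hne : xc P = xc Q
  · rcases eq_or_eq_neg_of_xc_eq hP hQ hne with h | h
    · subst h
      rw [min_self]
      have hy : yc P ≠ 0 := fun hy => hPQ (add_self_eq_zero_of_yc_eq_zero H.toIsE hy)
      exact le_v_xc_add_self H hy h1 hβ
    · exact absurd (by rw [h, neg_add_cancel]) hPQ
  · rcases le_total (v (xc Q)) (v (xc P)) with h | h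
    · rw [min_eq_right h]
      exact (le_v_xc_of_xc_ne H hP hQ hne h2 h hβ).1
    · rw [min_eq_left h, add_comm]
      exact (le_v_xc_of_xc_ne H hQ hP (Ne.symm hne) h1 h (by rwa [mul_comm])).1

/-- the subgroup `{O} ∪ {γ ≤ v x}`. -/
def Ege (H : Hyp v W) (γ : Γ₀) (h1 : 1 ≤ γ) (hβ : v W.a₄ < γ * γ) : AddSubgroup W.Point where
  carrier := {P | P = 0 ∨ γ ≤ v (xc P)}
  zero_mem' := Or.inl rfl
  neg_mem' := by
    rintro P (h | h)
    · exact Or.inl (by rw [h, _root_.neg_zero])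
    · exact Or.inr (by rwa [xc_neg])
  add_mem' := by
    rintro P Q hP hQ
    by_cases hP0 : P = 0
    · rw [hP0, zero_add]; exact hQ
    by_cases hQ0 : Q = 0
    · rw [hQ0, add_zero]; exact hP
    by_cases hPQ : P + Q = 0
    · exact Or.inl hPQ
    have hP' := hP.resolve_left hP0
    have hQ' := hQ.resolve_left hQ0
    refine Or.inr ((le_min hP' hQ').trans (min_le_v_xc_add H hP0 hQ0 hPQ (h1.trans hP')
      (h1.trans hQ') (hβ.trans_le ?_)))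
    gcongr

theorem mem_Ege (H : Hyp v W) {γ : Γ₀} {h1 : 1 ≤ γ} {hβ : v W.a₄ < γ * γ} {P : W.Point} :
    P ∈ Ege H γ h1 hβ ↔ P = 0 ∨ γ ≤ v (xc P) := Iff.rfl

end Fermat.Agent.S05Lib
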